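import Fermat.Agent.LevelLowering.Core.PointProps
import Fermat.Agent.LevelLowering.Core.Pair

/-!
# The data of a point

An eigensymbol over the coefficient ring of Taylor–Wiles data at a point, and the properties of the
representations attached to the point.
-/

set_option autoImplicit false

noncomputable section

open IsLocalRing WeierstrassCurve

namespace FLTAgent.LevelLowering

open FLTAgent.Density (GalQ Qbar)
open FLTAgent.DefRing FLTAgent.ModularityLifting FLTAgent.GaloisAttach FLTAgent.HeckePoints
  FLTAgent.LevelRaising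

variable {p : ℕ} [Fact p.Prime] {W : WeierstrassCurve ℤ} {O : Type} [CommRing O] [IsDomain O]
  [IsDiscreteValuationRing O] [IsAdicComplete (maximalIdeal O) O] [Finite (ResidueField O)]
  [CharZero O] [CharP (ResidueField O) p] {S : LowerSetup p W O} {r n : ℕ}

/-- An eigensymbol at a point `φ`, with eigenvalues `a` lifting the residual ones. -/
structure TWData.PointSymbol (Q : TWData S r n) (tw : Bool) {C : Type} [CommRing C] [IsLocalRing C]
    [Algebra O C] [IsLocalHom (algebraMap O C)] (φ : Q.Coef →ₐ[O] C) (a : ℕ → C) where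
  j : C →ₐ[O] Kbar O
  hj : Function.Injective j
  d : ℕ
  b : Fin d → Cusp → Cusp → Q.Coef
  hb : ∀ i, b i ∈ eigenPart Q.Coef (Q.delta tw) Q.badSet (fun l => algebraMap O Q.Coef (S.lift l))
  v : Fin d → Kbar O
  hne : comb (fun i => mapVal (j.comp φ).toRingHom (b i)) v ≠ 0
  ha : ∀ l, l.Prime → ¬ l ∣ Q.level * p →
    tOpChar (Kbar O) ((Q.delta tw).ringHomComp (j.comp φ).toRingHom) l
        (comb (fun i => mapVal (j.comp φ).toRingHom (b i)) v) =
      j (a l) • comb (fun i => mapVal (j.comp φ).toRingHom (b i)) v
  hres : ∀ l, l.Prime → l ∉ Q.badSet →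
    residue C (a l) = ResidueField.map (algebraMap O C) (residue O (S.lift l))

/-- A representation attached to a point, with the residual trace. -/
structure TWData.IsPointRep (Q : TWData S r n) (tw : Bool) {C : Type} [CommRing C] [IsDomain C]
    [IsDiscreteValuationRing C] [IsAdicComplete (maximalIdeal C) C] [Finite (ResidueField C)]
    [Algebra O C] [IsLocalHom (algebraMap O C)] (hpC : (p : C) ∈ maximalIdeal C)
    (φ : Q.Coef →ₐ[O] C) (a : ℕ → C) (ρ : MatRep C) : Prop where
  cont : MatCont ρ
  det : ∀ σ, (ρ σ).det = cycChar hpC σ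
  frob : ∀ l, l.Prime → l ∉ (Q.level * p).primeFactors → ∀ P : ValuationSubring Qbar,
    P.LiesOverPrime l → ∀ s, P.IsFrobeniusAt s l →
    (ρ s).trace = φ (Ring.inverse (Q.scalar tw l)) * a l
  res : ∀ g, residue C (ρ g).trace = ResidueField.map (algebraMap O C) (S.R.rep g).trace

end FLTAgent.LevelLowering

end
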