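import Fermat.Agent.LevelLowering.Points.TwSiteLevel

/-!
# The residual representation of a lift of the residual traces is absolutely irreducible

`absIrreducibleOn_residue_of_trace`: traces determine irreducibility, so the representations of the
points are residually absolutely irreducible.  Used to apply the local properties of newforms.
-/

set_option autoImplicit false

noncomputable section

open IsLocalRing

namespace FLTAgent.LevelLowering

open FLTAgent.DefRing FLTAgent.ModularityLifting

/-- A lift of the residual traces is residually absolutely irreducible. -/
theorem absIrreducibleOn_residue_of_trace {O C : Type} [CommRing O] [IsLocalRing O] [CommRing C]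
    [IsLocalRing C] [Algebra O C] [IsLocalHom (algebraMap O C)] {p : ℕ}
    (R : ResidualRep p (ResidueField O)) {ρ : MatRep C}
    (hres : ∀ g, residue C (ρ g).trace = ResidueField.map (algebraMap O C) (R.rep g).trace) :
    AbsIrreducibleOn (mapRep (residue C) ρ) ⊤ := by
  refine absIrreducibleOn_of_trace_eq (fun σ => ?_)
    (absIrreducibleOn_map (ResidueField.map (algebraMap O C)) R.irr)
  rw [mapRep_eq_map, mapRep_eq_map]
  exact ((AddMonoidHom.map_trace (residue C) (ρ σ)).symm.trans (hres σ)).trans
    (AddMonoidHom.map_trace (ResidueField.map (algebraMap O C)) (R.rep σ))

end FLTAgent.LevelLowering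

end
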