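import Fermat.Agent.LevelLowering.Core.PointProps
import Fermat.Agent.LevelLowering.Core.Pair
import Fermat.Agent.LevelLowering.Points.Irred
import Fermat.Agent.LevelLowering.Site.Newform
import Fermat.Agent.ModularityLifting.FlatOfTrace
import Fermat.Agent.LevelLowering.Points.Input

/-!
# The newform of a point, and ramification outside the minimal level

The eigensymbol of a point twists to one on a newform whose level only involves the primes of the
level, to the square only where the character is nontrivial.  Hence the trace function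
(`TWData.exists_point_level`), unramifiedness (`TWData.point_unramified`) and flatness at `p`
(`TWData.point_flat`) used in `LevelLowering.Points.Assemble`.
-/

set_option autoImplicit false

noncomputable section

open IsLocalRing WeierstrassCurve

namespace FLTAgent.LevelLowering

open FLTAgent.Density (GalQ Qbar)
open FLTAgent.DefRing FLTAgent.ModularityLifting FLTAgent.GaloisAttach FLTAgent.HeckePoints
  FLTAgent.LevelRaising

variable {p : ℕ} [Fact p.Prime] {W : WeierstrassCurve ℤ} {O : Type} [CommRing O] [IsDomain O]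
  [IsDiscreteValuationRing O] [IsAdicComplete (maximalIdeal O) O] [Finite (ResidueField O)]
  [CharZero O] [CharP (ResidueField O) p] {S : LowerSetup p W O} {r n : ℕ}

/-- The newform of a point. -/
theorem TWData.exists_point_level (Q : TWData S r n) (tw : Bool) (hp2 : p ≠ 2)
    [IsLocalRing Q.Coef]
    {C : Type} [CommRing C] [IsDomain C] [IsDiscreteValuationRing C]
    [IsAdicComplete (maximalIdeal C) C] [Finite (ResidueField C)] [CharZero C]
    [Algebra O C] [Module.Finite O C] [IsLocalHom (algebraMap O C)]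
    (hpC : (p : C) ∈ maximalIdeal C) {φ : Q.Coef →ₐ[O] C} {a : ℕ → C} (E : Q.PointSymbol tw φ a) :
    ∃ f, IsPointTrace hpC (Q.level * p).primeFactors
        (fun l => φ (Ring.inverse (Q.scalar tw l)) * a l) f ∧
      (∀ g, residue C (f g) = ResidueField.map (algebraMap O C) (S.R.rep g).trace) ∧
      ∃ (M' : ℕ) (_ : NeZero M') (g : CuspForm (CongruenceSubgroup.Gamma0 M') 2),
        (∀ q, q.Prime → q ∣ M' → q ∣ Q.level) ∧
        (∀ q, q.Prime → q ^ 2 ∣ M' →
          ¬ ((∀ i, Q.q i ≠ q) ∧ (tw = false ∨ q ∉ S.sites))) ∧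
        ∀ ρ : MatRep C, MatCont ρ → (∀ σ, (ρ σ).det = cycChar hpC σ) →
          (∀ l, l.Prime → l ∉ (Q.level * p).primeFactors → ∀ P : ValuationSubring Qbar,
            P.LiesOverPrime l → ∀ s, P.IsFrobeniusAt s l →
            (ρ s).trace = φ (Ring.inverse (Q.scalar tw l)) * a l) →
          OnNewform hpC (Q.level * p).primeFactors ρ g := by
  classical
  obtain ⟨j, hj, d, b, hb, v, hne, ha, hres⟩ := E
  have hp : p.Prime := Fact.out
  have : NeZero Q.level := ⟨Q.level_ne_zero⟩
  have : CharP (ResidueField C) p := (RingHom.charP_iff (ResidueField.map (algebraMap O C))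
    (ResidueField.map (algebraMap O C)).injective p).mp inferInstance
  have : IsLocalHom (φ : Q.Coef →+* C) := PointsDatum.isLocalHom_of_finite φ
  set ψ : Q.Coef →+* C := (φ : Q.Coef →+* C)
  set L := Q.level
  let χ : ∀ t, DirichletCharacter C t := fun t => (Q.chi tw t).ringHomComp ψ
  set T := L.primeFactors.filter fun t => χ t ≠ 1
  have hTL : ∀ t ∈ T, t ∈ L.primeFactors := fun t ht => (Finset.mem_filter.mp ht).1
  have hT : ∀ t ∈ T, t.Prime := fun t ht => Nat.prime_of_mem_primeFactors (hTL t ht)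
  have hχ : ∀ t ∈ T, χ t ^ 2 ≠ 1 := fun t ht h =>
    (Finset.mem_filter.mp ht).2 (Q.chi_eq_one_of_sq ψ hp2 tw t h)
  set M := ∏ t ∈ L.primeFactors \ T, t with hMdef
  have hLM : L = M * ∏ t ∈ T, t := Q.level_eq_mul_prod hTL
  have hM0 : M ≠ 0 := fun h => Q.level_ne_zero (show L = 0 by rw [hLM, h, zero_mul])
  have hMT : ∀ t ∈ T, ¬ t ∣ M := fun t ht => Q.not_dvd_prod_sdiff hTL ht
  have hout : ∀ t ∈ L.primeFactors, t ∉ T → χ t = 1 := fun t ht htT =>
    by_contra fun h => htT (Finset.mem_filter.mpr ⟨ht, h⟩)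
  have hLp0 : L * p ≠ 0 := mul_ne_zero Q.level_ne_zero hp.ne_zero
  set S0 := (L * p).primeFactors with hS0
  have hpS : p ∈ S0 := Nat.mem_primeFactors.mpr ⟨hp, dvd_mul_left _ _, hLp0⟩
  have hSL : ∀ l, l.Prime → l ∣ L → l ∈ S0 := fun l hl h =>
    Nat.mem_primeFactors.mpr ⟨hl, h.mul_right p, hLp0⟩
  have hsub : S0 ⊆ Q.badSet := fun l hl => Q.mem_badSet_of_dvd (Nat.prime_of_mem_primeFactors hl)
    (Nat.dvd_of_mem_primeFactors hl)
  have hnd : ∀ l, l.Prime → l ∉ S0 → ¬ l ∣ L * p := fun l hl hlS h =>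
    hlS (Nat.mem_primeFactors.mpr ⟨hl, h, hLp0⟩)
  have hδ : ∀ x : ℤ, IsUnit (x : ZMod L) →
      (Q.delta tw).ringHomComp ψ (x : ZMod L) = ∏ t ∈ T, χ t (x : ZMod t) ^ 2 := fun x hx =>
    Q.delta_eq_prod_sq ψ hTL tw hout hx
  have hscal : ∀ l, l.Prime → l ∉ S0 →
      (∏ t ∈ T, (χ t)⁻¹ (l : ZMod t)) = φ (Ring.inverse (Q.scalar tw l)) := fun l hl hlS =>
    Q.prod_chi_inv ψ hTL tw hout hl fun h => hlS (hSL l hl h)
  -- the eigensymbol
  set Φ := comb (fun i => mapVal (j.comp φ).toRingHom (b i)) v with hΦdef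
  have hδj : ((Q.delta tw).ringHomComp ψ).ringHomComp (j : C →+* Kbar O) =
      (Q.delta tw).ringHomComp (j.comp φ).toRingHom := MulChar.ext fun _ => rfl
  have hΦ : Φ ∈ SymbChar (Kbar O) (((Q.delta tw).ringHomComp ψ).ringHomComp (j : C →+* Kbar O)) :=
    hδj ▸ Q.comb_mem_symbChar (j.comp φ).toRingHom tw b hb v
  have hres' : ∀ l, l.Prime → l ∉ Q.badSet → ∀ P : ValuationSubring Qbar, P.LiesOverPrime l →
      ∀ s, P.IsFrobeniusAt s l → residue C (φ (Ring.inverse (Q.scalar tw l)) * a l) =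
        ResidueField.map (algebraMap O C) (S.R.rep s).trace := by
    intro l hl hlS P hP s hs
    have hlL : ¬ l ∣ L := fun h => hlS (hsub (hSL l hl h))
    have h1 : residue C (φ (Q.scalar tw l)) = 1 := by
      have h := congrArg (ResidueField.map (φ : Q.Coef →+* C)) (Q.residue_scalar tw hl hlL)
      rwa [ResidueField.map_residue, map_one] at h
    have h2 := congrArg (residue C) (congrArg φ
      (Ring.inverse_mul_cancel _ (Q.isUnit_scalar tw hl hlL)))
    rw [map_mul, map_mul, h1, mul_one, map_one, map_one] at h2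
    rw [map_mul, h2, one_mul, hres l hl hlS,
      S.residue_lift hl (fun h => hlS (Finset.mem_union_left _ h)) P hP s hs]
  obtain ⟨f, hf, Ψ, -, -, -, M', hM'0, g, hM', hnew⟩ := exists_point_newform (hpC := hpC)
    (j : C →+* Kbar O) hj T hT χ hχ hM0 hMT hLM ((Q.delta tw).ringHomComp ψ) hδ S0 hpS hSL a hΦ hne
    (fun l hl hlS => by rw [hδj]; exact ha l hl (hnd l hl hlS)) hp2 S.R
    (ResidueField.map (algebraMap O C)) Q.badSet hsub
    (fun l hl hlS P hP s hs => by
      rw [hscal l hl fun h => hlS (hsub h)]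
      exact hres' l hl hlS P hP s hs)
  have hf' : IsPointTrace hpC S0 (fun l => φ (Ring.inverse (Q.scalar tw l)) * a l) f :=
    ⟨hf.pseudo, hf.cont, hf.conj, fun l hl hlS P hP s hs => by
      rw [hf.frob l hl hlS P hP s hs, hscal l hl hlS]⟩
  obtain ⟨ρ₀, hρ₀, hdet₀, htr₀, -⟩ := (hf'.mono hsub).exists_rep hp2 (hsub hpS)
    mem_maximalIdeal_of_charP S.R hres'
  have H₀ := hnew ρ₀ hρ₀ hdet₀ htr₀
  refine ⟨f, hf', fun x => (hf'.mono hsub).residue_eq (hsub hpS) S.R _ hres' x, M', hM'0, g,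
    fun q hq hqM => ?_, fun q hq hqM hq' => ?_, fun ρ hρ hdet hfrob => ?_⟩
  · rw [hLM]
    rcases hq.dvd_mul.mp (hqM.trans hM') with h | h
    · exact h.mul_right _
    · obtain ⟨t, ht, hqt⟩ := hq.prime.exists_mem_finset_dvd h
      exact ((hq.dvd_of_dvd_pow hqt).trans (Finset.dvd_prod_of_mem _ ht)).mul_left _
  · have hqT : q ∉ T := fun h => (Finset.mem_filter.mp h).2 (by
      show (Q.chi tw q).ringHomComp ψ = 1
      rw [TWData.chi, Q.unitVal_of_ne tw hq'.1,
        show (if tw then S.siteRoot q else 1) = (1 : O) from by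
        rcases hq'.2 with rfl | h
        · rfl
        · rw [S.siteRoot_of_notMem h, ite_self], map_one, primeChar_one, MulChar.ringHomComp_one])
    have hcop : Nat.Coprime (q ^ 2) (∏ t ∈ T, t ^ 2) := Nat.Coprime.prod_right fun t ht =>
      ((Nat.coprime_primes hq (hT t ht)).mpr fun e => hqT (e ▸ ht)).pow 2 2
    have hsq : Squarefree M :=
      Q.squarefree_level.squarefree_of_dvd (show M ∣ L by rw [hLM]; exact dvd_mul_right M _)
    exact hq.one_lt.ne' (Nat.isUnit_iff.mp (hsq q (by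
      rw [← pow_two]
      exact hcop.dvd_of_dvd_mul_right (hqM.trans hM'))))
  · obtain ⟨θ, hker, hθ⟩ := H₀.char
    exact ⟨H₀.isNewform, H₀.mem, hρ, hdet, θ, hker, fun l hl hlM hlS P hP s hs => by
      rw [← hθ l hl hlM hlS P hP s hs, htr₀,
        hfrob l hl (fun h => hlS (Finset.mem_coe.mpr h)) P hP s hs]
      exact (hf'.frob l hl (fun h => hlS (Finset.mem_coe.mpr h)) P hP s hs).symm⟩

/-- Unramified outside the minimal level, `p` and the Taylor–Wiles primes. -/
theorem TWData.point_unramified (Q : TWData S r n) (tw : Bool) (hp2 : p ≠ 2)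
    [IsLocalRing Q.Coef]
    {C : Type} [CommRing C] [IsDomain C] [IsDiscreteValuationRing C]
    [IsAdicComplete (maximalIdeal C) C] [Finite (ResidueField C)] [CharZero C]
    [Algebra O C] [Module.Finite O C] [IsLocalHom (algebraMap O C)]
    (hpC : (p : C) ∈ maximalIdeal C) {φ : Q.Coef →ₐ[O] C} {a : ℕ → C} (E : Q.PointSymbol tw φ a)
    {ρ : MatRep C} (H : Q.IsPointRep tw hpC φ a ρ)
    {q : ℕ} (hq : q.Prime) (hq1 : q ∉ S.loc) (hqp : q ≠ p) (hqi : ∀ i, Q.q i ≠ q) :
    UnramifiedAt ρ q := by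
  classical
  obtain ⟨-, -, -, M', _, g, hdvd, hsq, hnew⟩ :=
    Q.exists_point_level tw hp2 hpC E
  have hresρ := H.res
  replace H := hnew ρ H.cont H.det H.frob
  have hirr := absIrreducibleOn_residue_of_trace S.R hresρ
  by_cases hd : q ∣ M'
  swap
  · exact H.unramifiedAt hirr hq hqp hd
  exfalso
  obtain ⟨h3, rfl⟩ : p = 3 ∧ q = S.E := by
    rcases hq.dvd_mul.mp (hdvd q hq hd) with h | h
    · rcases hq.dvd_mul.mp h with h | h
      · exact absurd (Nat.mem_primeFactors.mpr ⟨hq, h, S.sqfree.ne_zero⟩) hq1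
      · have h3 : p = 3 := by_contra fun h3 => hq.one_lt.ne' (by
          rw [S.E_eq h3] at h; exact Nat.dvd_one.mp h)
        exact ⟨h3, (Nat.prime_dvd_prime_iff_eq hq (S.E_three h3).1).mp h⟩
    · obtain ⟨i, -, hi⟩ := hq.prime.exists_mem_finset_dvd h
      exact absurd ((Nat.prime_dvd_prime_iff_eq hq (Q.prime i)).mp hi).symm (hqi i)
  obtain ⟨-, hE2, hEM, -, hne'⟩ := S.E_three h3
  obtain ⟨ε, -, hst⟩ := H.steinbergAt hp2 hirr hq hqp hd fun h => hsq _ hq h
    ⟨hqi, Or.inr fun hs => hEM (S.mem_loc (S.mem_sites hs).2.2.2.2).2⟩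
  obtain ⟨P, hP⟩ := Density.exists_liesOverPrime hq
  obtain ⟨σ, hσ⟩ := Density.exists_isFrobeniusAt P hq hP
  refine hne' P hP σ hσ ((ResidueField.map (algebraMap O C)).injective ?_)
  rw [map_zero, ← hresρ, (hst P hP).2 σ hσ, map_mul]
  have : CharP (ResidueField C) p := (RingHom.charP_iff (ResidueField.map (algebraMap O C))
    (ResidueField.map (algebraMap O C)).injective p).mp inferInstance
  have h0 : residue C ((S.E : C) + 1) = 0 := by
    rw [map_add, map_natCast, map_one, ← Nat.cast_one (R := ResidueField C), ← Nat.cast_add,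
      CharP.cast_eq_zero_iff _ p]
    obtain ⟨c, hc⟩ : 3 ∣ S.E + 1 := by omega
    exact ⟨c, hc.trans (congrArg (· * c) h3.symm)⟩
  rw [h0, mul_zero]

/-- Flat at `p` outside the minimal level. -/
theorem TWData.point_flat (Q : TWData S r n) (tw : Bool) (hp2 : p ≠ 2)
    [IsLocalRing Q.Coef]
    {C : Type} [CommRing C] [IsDomain C] [IsDiscreteValuationRing C]
    [IsAdicComplete (maximalIdeal C) C] [Finite (ResidueField C)] [CharZero C]
    [Algebra O C] [Module.Finite O C] [IsLocalHom (algebraMap O C)]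
    (hpC : (p : C) ∈ maximalIdeal C) {φ : Q.Coef →ₐ[O] C} {a : ℕ → C} (E : Q.PointSymbol tw φ a)
    {ρ : MatRep C} (H : Q.IsPointRep tw hpC φ a ρ)
    (hploc : p ∉ S.loc) : FlatAt ρ p := by
  obtain ⟨-, -, -, M', _, g, hdvd, -, hnew⟩ :=
    Q.exists_point_level tw hp2 hpC E
  have hresρ := H.res
  replace H := hnew ρ H.cont H.det H.frob
  obtain ⟨θ, -, -, T, hT⟩ := H.exists_attached
  refine flatAt_of_trace p hp2 hpC (fun h => hploc ?_) _ θ T ρ H.cont hT
    (absIrreducibleOn_residue_of_trace S.R hresρ)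
  have hp : p.Prime := Fact.out
  rcases hp.dvd_mul.mp (hdvd p hp h) with h | h
  · rcases hp.dvd_mul.mp h with h | h
    · exact Nat.mem_primeFactors.mpr ⟨hp, h, S.sqfree.ne_zero⟩
    · exfalso
      by_cases h3 : p = 3
      · obtain ⟨hE, hE2, -⟩ := S.E_three h3
        have := (Nat.prime_dvd_prime_iff_eq hp hE).mp h
        omega
      · rw [S.E_eq h3] at h
        exact hp.one_lt.ne' (Nat.dvd_one.mp h)
  · obtain ⟨i, -, hi⟩ := hp.prime.exists_mem_finset_dvd h
    exact (Q.not_mem i (S.mem_badSet_of_dvd (Q.prime i)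
      (dvd_mul_of_dvd_right ((Nat.prime_dvd_prime_iff_eq hp (Q.prime i)).mp hi ▸ dvd_rfl) _))).elim

end FLTAgent.LevelLowering

end
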