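import Fermat.Agent.LevelLowering.Points.TwSiteLevel
import Fermat.Agent.ModularityLifting.Degeneracy.Operators
import Fermat.Agent.ModularityLifting.EigenFree

/-!
# The square of `U_t` on an eigenpart without old symbols

When the eigenpart at level `N` vanishes, both traces kill the eigenpart at level `N t`, on which
therefore `U_t` composed with itself is the scalar `c ^ 2` (`uOp_uOp_of_bot`).  For Taylor–Wiles
data the eigenpart at the level without a prime of the minimal level vanishes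
(`eigenPart_away_eq_bot`).  Used by `LevelLowering.Points.NewformDvd`.
-/

set_option autoImplicit false

noncomputable section

open IsLocalRing WeierstrassCurve

namespace FLTAgent.LevelLowering

open FLTAgent.Density (GalQ Qbar)
open FLTAgent.DefRing FLTAgent.ModularityLifting FLTAgent.HeckePoints FLTAgent.LevelRaising
  FLTAgent.Degeneracy

section General

variable {A : Type} [CommRing A] [IsLocalRing A] {N N' t : ℕ}

/-- A linear map commuting with the shifted operators preserves eigenparts. -/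
theorem map_mem_eigenPart {δ : DirichletCharacter A N} {δ' : DirichletCharacter A N'} (S : Finset ℕ)
    (hS : ∀ q, q.Prime → q ∣ N → q ∈ S) (hS' : ∀ q, q.Prime → q ∣ N' → q ∈ S) {a : ℕ → A}
    (f : (Cusp → Cusp → A) →ₗ[A] (Cusp → Cusp → A))
    (hf : ∀ Φ ∈ SymbChar A δ, f Φ ∈ SymbChar A δ')
    (hc : ∀ l, l.Prime → l ∉ S → ∀ Φ ∈ SymbChar A δ,
      tOpChar A δ' l (f Φ) = f (tOpChar A δ l Φ))
    {Φ : Cusp → Cusp → A} (hΦ : Φ ∈ eigenPart A δ S a) : f Φ ∈ eigenPart A δ' S a := by
  obtain ⟨h1, h2⟩ := (mem_eigenPart_iff hS).mp hΦ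
  refine (mem_eigenPart_iff hS').mpr ⟨hf Φ h1, fun l hl hlS n => ?_⟩
  obtain ⟨j, hj⟩ := h2 l hl hlS n
  have hlN : ¬ l ∣ N := fun h => hlS (hS l hl h)
  have hpow : ∀ k, (shiftOp A δ' l (a l) ^ k) (f Φ) = f ((shiftOp A δ l (a l) ^ k) Φ) := by
    intro k
    induction k with
    | zero => rfl
    | succ k ih =>
      rw [pow_succ', Module.End.mul_apply, ih, shiftOp_apply, pow_succ', Module.End.mul_apply,
        shiftOp_apply, map_sub, map_smul, hc l hl hlS _ (pow_shiftOp_mem hl hlN _ k h1)]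
  refine ⟨j, ?_⟩
  rw [hpow]
  generalize (shiftOp A δ l (a l) ^ j) Φ = X at hj
  induction hj using Submodule.smul_induction_on' with
  | smul r hr v hv => rw [map_smul]; exact Submodule.smul_mem_smul hr (hf v hv)
  | add x _ y _ hx hy => rw [map_add]; exact add_mem hx hy

/-- Without old symbols, `U_t` twice is `c ^ 2`. -/
theorem uOp_uOp_of_bot (ht : t.Prime) (htN : ¬ t ∣ N) (δ : DirichletCharacter A N) (c : Aˣ)
    (hc : (c : A) * c = δ (t : ZMod N)) (S : Finset ℕ)
    (hS : ∀ q, q.Prime → q ∣ N * t → q ∈ S) {a : ℕ → A}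
    (hbot : eigenPart A δ S a = ⊥) {Φ : Cusp → Cusp → A}
    (hΦ : Φ ∈ eigenPart A (upChar t δ) S a) :
    uOp A t (uOp A t Φ) = ((c : A) * c) • Φ := by
  obtain ⟨D⟩ := LevelRaising.exists_alData (N := N) ht htN
  have hSN : ∀ q, q.Prime → q ∣ N → q ∈ S := fun q hq h => hS q hq (h.mul_right t)
  have hout : ∀ l, l.Prime → l ∉ S → ¬ l ∣ N * t := fun l hl hlS h => hlS (hS l hl h)
  have hw : ∀ {Ψ}, Ψ ∈ eigenPart A (upChar t δ) S a →
      wChar D δ c Ψ ∈ eigenPart A (upChar t δ) S a := fun h =>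
    map_mem_eigenPart S hS hS (wChar D δ c) (fun _ h => wChar_mem D ht c h)
      (fun l hl hlS Ψ h => tOpChar_wChar D ht c hl (hout l hl hlS) h) h
  have htr : ∀ {Ψ}, Ψ ∈ eigenPart A (upChar t δ) S a → trChar D δ Ψ = 0 := fun h => by
    have h1 := map_mem_eigenPart S hS hSN (trChar D δ) (fun _ h => trChar_mem D ht htN h)
      (fun l hl hlS Ψ h => tOpChar_trChar D ht hl (hout l hl hlS) h) h
    rwa [hbot, Submodule.mem_bot] at h1
  have hU : ∀ {Ψ}, Ψ ∈ eigenPart A (upChar t δ) S a → uOp A t Ψ = -((c : A) • wChar D δ c Ψ) :=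
    fun {Ψ} h => by
      have e := uOp_eq_trChar D ht c hc ((mem_eigenPart_iff hS).mp h).1
      rw [htr (hw h), zero_sub] at e
      rw [← smul_neg, ← e, smul_smul, Units.mul_inv, one_smul]
  rw [hU hΦ, map_neg, map_smul, hU (hw hΦ), wChar_wChar D ht c hc ((mem_eigenPart_iff hS).mp hΦ).1,
    smul_neg, neg_neg, smul_smul]

end General

variable {p : ℕ} [Fact p.Prime] {W : WeierstrassCurve ℤ} {O : Type} [CommRing O] [IsDomain O]
  [IsDiscreteValuationRing O] [IsAdicComplete (maximalIdeal O) O] [Finite (ResidueField O)]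
  [CharZero O] [CharP (ResidueField O) p] {S : LowerSetup p W O} {r n : ℕ}

namespace TWData

variable (Q : TWData S r n)

/-- The nebentype without the prime `t`. -/
def deltaAway (tw : Bool) (N : ℕ) : DirichletCharacter Q.Coef N :=
  ∏ u ∈ N.primeFactors.attach,
    DirichletCharacter.changeLevel (Nat.dvd_of_mem_primeFactors u.2) (Q.chi tw u.1 ^ 2)

omit [Fact (Nat.Prime p)] [IsAdicComplete (maximalIdeal O) O] [Finite (ResidueField O)] [CharZero O]
  [CharP (ResidueField O) p] in
theorem deltaAway_apply (tw : Bool) {N : ℕ} {d : ℤ} (hd : IsUnit (d : ZMod N)) :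
    Q.deltaAway tw N (d : ZMod N) = ∏ u ∈ N.primeFactors, Q.chi tw u (d : ZMod u) ^ 2 := by
  classical
  rw [← Finset.prod_attach N.primeFactors fun u => Q.chi tw u (d : ZMod u) ^ 2, deltaAway]
  induction N.primeFactors.attach using Finset.induction_on with
  | empty => rw [Finset.prod_empty, Finset.prod_empty, MulChar.one_apply hd]
  | insert u s hu ih =>
    rw [Finset.prod_insert hu, Finset.prod_insert hu, MulChar.mul_apply, ih,
      changeLevel_intCast _ _ _ hd, MulChar.pow_apply' _ two_ne_zero]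

omit [IsAdicComplete (maximalIdeal O) O] [Finite (ResidueField O)] [CharZero O]
  [CharP (ResidueField O) p] in
theorem chi_eq_one_of_trivial (tw : Bool) {t : ℕ} (ht : t ∈ S.loc)
    (ht' : tw = false ∨ t ∉ S.sites) : Q.chi tw t = 1 := by
  obtain ⟨htP, htM⟩ := S.mem_loc ht
  have hne : ∀ i, Q.q i ≠ t := fun i e => Q.not_mem i (S.mem_badSet_of_dvd (Q.prime i)
    (((e.symm ▸ htM : Q.q i ∣ S.M).mul_right S.E).mul_right p))
  rw [chi, Q.unitVal_of_ne tw hne, show (if tw then S.siteRoot t else 1) = (1 : O) from by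
    rcases ht' with rfl | h
    · rfl
    · rw [S.siteRoot_of_notMem h, ite_self], map_one, primeChar_one]

/-- **No eigensymbols without a prime of the minimal level.** -/
theorem eigenPart_away_eq_bot [IsLocalRing Q.Coef] (tw : Bool) (hp2 : p ≠ 2)
    {t : ℕ} (ht : t ∈ S.loc) :
    eigenPart Q.Coef (Q.deltaAway tw (Q.level / t)) Q.badSet Q.aA = ⊥ := by
  classical
  obtain ⟨htP, htM⟩ := S.mem_loc ht
  have htL : t ∣ Q.level := (htM.mul_right S.E).mul_right _
  set N := Q.level / t with hN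
  have hNL : N ∣ Q.level := Nat.div_dvd_of_dvd htL
  have : NeZero N := ⟨fun h => Q.level_ne_zero (zero_dvd_iff.mp (h ▸ hNL))⟩
  have hS : ∀ l, l.Prime → l ∣ N * p → l ∈ Q.badSet := fun l hl h =>
    Q.mem_badSet_of_dvd hl (h.trans (Nat.mul_dvd_mul_right hNL p))
  have hSN : ∀ l, l.Prime → l ∣ N → l ∈ Q.badSet := fun l hl h => hS l hl (h.mul_right p)
  have hell : p = 3 → ∃ s, s.Prime ∧ s ∣ N ∧ s % 3 = 2 := fun h3 => by
    obtain ⟨hE, hE2, hEM, -⟩ := S.E_three h3
    have hEL : S.E ∣ N * t := by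
      rw [hN, Nat.div_mul_cancel htL]
      exact (dvd_mul_left S.E S.M).mul_right _
    refine ⟨S.E, hE, (hE.dvd_mul.mp hEL).resolve_right fun h => hEM ?_, hE2⟩
    rw [(Nat.prime_dvd_prime_iff_eq hE htP).mp h]
    exact htM
  have hres : (Q.deltaAway tw N).ringHomComp (residue Q.Coef) = 1 := by
    refine MulChar.ext fun x => ?_
    obtain ⟨d, hd⟩ := ZMod.intCast_surjective (x : ZMod N)
    have hu : IsUnit (d : ZMod N) := hd.symm ▸ x.isUnit
    rw [MulChar.one_apply_coe, MulChar.ringHomComp_apply, ← hd, Q.deltaAway_apply tw hu, map_prod]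
    refine Finset.prod_eq_one fun u hu' => ?_
    have h2 := hu.map (ZMod.castHom (Nat.dvd_of_mem_primeFactors hu') (ZMod u))
    rw [map_intCast] at h2
    rw [map_pow, Q.residue_chi tw (Nat.prime_of_mem_primeFactors hu') h2, one_pow]
  have hδ : ∀ x : (ZMod N)ˣ, ∃ k, Q.deltaAway tw N x ^ p ^ k = 1 := by
    intro x
    choose m hm using Q.exists_unitVal_pow tw
    refine ⟨N.primeFactors.sup m, ?_⟩
    obtain ⟨d, hd⟩ := ZMod.intCast_surjective (x : ZMod N)
    have hu : IsUnit (d : ZMod N) := hd.symm ▸ x.isUnit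
    rw [← hd, Q.deltaAway_apply tw hu, ← Finset.prod_pow]
    refine Finset.prod_eq_one fun u hu' => ?_
    have h2 := hu.map (ZMod.castHom (Nat.dvd_of_mem_primeFactors hu') (ZMod u))
    rw [map_intCast] at h2
    obtain ⟨e, he⟩ := Nat.exists_eq_add_of_le (Finset.le_sup (f := m) hu')
    have h1 : Q.chi tw u ^ p ^ N.primeFactors.sup m = 1 := by
      rw [he, pow_add p (m u) e, pow_mul, show Q.chi tw u ^ p ^ m u = 1 from
        primeChar_pow_eq_one (hm u), one_pow]
    rw [← pow_mul, mul_comm, pow_mul, ← MulChar.pow_apply' _ (pow_ne_zero _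
      (Fact.out : p.Prime).ne_zero), h1, MulChar.one_apply h2, one_pow]
  -- residually
  let ι : ResidueField O →+* ResidueField Q.Coef := ResidueField.map (algebraMap O Q.Coef)
  have hι : Function.Bijective ι := by
    refine ⟨ι.injective, fun x => ?_⟩
    obtain ⟨x, rfl⟩ := residue_surjective x
    have ho : x - algebraMap O Q.Coef (levelAug O r (p ^ (n + 1)) x) ∈ maximalIdeal Q.Coef :=
      fun hu => by
      have h := hu.map (levelAug O r (p ^ (n + 1)))
      rw [map_sub, AlgHom.commutes, Algebra.algebraMap_self, RingHom.id_apply, sub_self] at h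
      exact not_isUnit_zero h
    refine ⟨residue O (levelAug O r (p ^ (n + 1)) x), (ResidueField.map_residue _ _).trans ?_⟩
    have h := (residue_eq_zero_iff _).mpr ho
    rw [map_sub, sub_eq_zero] at h
    exact h.symm
  have hne : ∃ ℓ, ℓ.Prime ∧ ℓ ∉ Q.badSet ∧ ℓ % N = 1 % N ∧
      residue Q.Coef (Q.aA ℓ) ≠ residue Q.Coef (1 + ℓ) := by
    obtain ⟨ℓ, hℓ, hℓS, hmod, h⟩ := exists_ne_eisenstein (S := Q.badSet) (a := S.lift) (L := N) S.R
      hp2 fun l hl hlS => S.residue_lift hl fun h => hlS (Finset.mem_union_left _ h)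
    refine ⟨ℓ, hℓ, hℓS, hmod, fun he => h (ι.injective ?_)⟩
    rw [show ι (residue O (S.lift ℓ)) = residue Q.Coef (Q.aA ℓ) from
      ResidueField.map_residue _ _, he]
    simp only [map_add, map_one, map_natCast]
  obtain ⟨hfin, -, hbc⟩ := eigenPart_free_baseChange p hp2 (Q.deltaAway tw N) hδ hell Q.badSet hS
    Q.aA hne
  obtain ⟨-, hker⟩ := hbc _ (residue Q.Coef) residue_surjective
  have hzero : eigenPart (ResidueField Q.Coef) (1 : DirichletCharacter (ResidueField Q.Coef) N)
      Q.badSet (residue Q.Coef ∘ Q.aA) = ⊥ := by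
    rw [Submodule.eq_bot_iff]
    intro Φ hΦ
    let e := RingEquiv.ofBijective ι hι
    have : IsLocalHom e.symm.toRingHom := ⟨fun a ha => by
      have h := ha.map e.toRingHom
      change IsUnit (e (e.symm a)) at h
      rwa [e.apply_symm_apply] at h⟩
    have h := PointsDatum.mapVal_mem_eigenPart_of_isLocalHom e.symm.toRingHom hSN hΦ
    rw [MulChar.ringHomComp_one, show e.symm.toRingHom ∘ (residue Q.Coef ∘ Q.aA) =
      residue O ∘ S.lift
      from funext fun l => (congrArg e.symm (ResidueField.map_residue (algebraMap O Q.Coef)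
        (S.lift l)).symm).trans (e.symm_apply_apply (residue O (S.lift l))),
      Q.eigenPart_div_eq_bot hp2 htP htM, Submodule.mem_bot] at h
    exact (mapVal_eq_zero_iff e.symm.injective).mp h
  set V := eigenPart Q.Coef (Q.deltaAway tw N) Q.badSet Q.aA
  refine Submodule.eq_bot_of_le_smul_of_le_jacobson_bot (RingHom.ker (residue Q.Coef)) V
    (Module.Finite.iff_fg.mp hfin) (fun Φ hΦ => hker Φ hΦ fun x y => ?_) ?_
  · have h := mapVal_mem_eigenPart (residue Q.Coef) residue_surjective hSN hΦ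
    rw [hres, hzero, Submodule.mem_bot] at h
    exact congrFun (congrFun h x) y
  · rw [ker_residue]
    exact maximalIdeal_le_jacobson _

omit [IsAdicComplete (maximalIdeal O) O] [Finite (ResidueField O)] [CharZero O]
  [CharP (ResidueField O) p] in
/-- The eigenpart at the level, seen above the level without `t`. -/
theorem eigenPart_level_eq [IsLocalRing Q.Coef] (tw : Bool) {t : ℕ} (ht : t ∈ S.loc)
    (ht' : tw = false ∨ t ∉ S.sites) :
    eigenPart Q.Coef (Q.delta tw) Q.badSet Q.aA =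
      eigenPart Q.Coef (upChar t (Q.deltaAway tw (Q.level / t))) Q.badSet Q.aA := by
  classical
  obtain ⟨htP, htM⟩ := S.mem_loc ht
  have htL : t ∣ Q.level := (htM.mul_right S.E).mul_right _
  refine (PointsDatum.eigenPart_congr (Nat.div_mul_cancel htL).symm _ _ (fun d hd => ?_)
    Q.badSet Q.aA).1
  have hd' := isUnit_of_dvd (Nat.div_mul_cancel htL).dvd hd
  have hd2 := isUnit_of_dvd (dvd_mul_right _ _) hd'
  rw [Q.delta_apply tw hd, changeLevel_intCast _ _ _ hd', Q.deltaAway_apply tw hd2]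
  refine (Finset.prod_subset (Nat.primeFactors_mono (Nat.div_dvd_of_dvd htL) Q.level_ne_zero)
    fun u hu hu' => ?_).symm
  obtain ⟨huP, huL, -⟩ := Nat.mem_primeFactors.mp hu
  obtain rfl : u = t := by
    rw [← Nat.div_mul_cancel htL] at huL
    refine (Nat.prime_dvd_prime_iff_eq huP htP).mp ((huP.dvd_mul.mp huL).resolve_left fun h =>
      hu' (Nat.mem_primeFactors.mpr ⟨huP, h, fun h0 => Q.level_ne_zero ?_⟩))
    rw [← Nat.div_mul_cancel htL, h0, zero_mul]
  rw [Q.chi_eq_one_of_trivial tw ht ht', MulChar.one_apply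
    (isUnit_of_dvd (Nat.dvd_of_mem_primeFactors hu) hd), one_pow]

end TWData

end FLTAgent.LevelLowering

end
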