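import Fermat.Agent.LevelLowering.Core.PointProps
import Fermat.Agent.LevelLowering.Core.Pair
import Fermat.Agent.LevelLowering.Points.NewformDvdKernel
import Fermat.Agent.LevelLowering.Twist.Iterate
import Fermat.Agent.LevelLowering.Twist.Kernel
import Fermat.Agent.LevelLowering.Site.Newform
import Fermat.Agent.LevelLowering.Points.Input

/-!
# A prime of the minimal level with trivial character stays in the level

`TWData.exists_newform_dvd`: at a prime `t` of the minimal level whose character is trivial a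
point twists to a symbol on which `U_t` is `± 1`, hence lies on a newform of level exactly
divisible by `t`.  This gives the Steinberg and strict properties of points.
-/

set_option autoImplicit false

noncomputable section

open IsLocalRing WeierstrassCurve
namespace FLTAgent.LevelLowering
open FLTAgent.Density (GalQ Qbar)
open FLTAgent.DefRing FLTAgent.ModularityLifting FLTAgent.GaloisAttach FLTAgent.HeckePoints
  FLTAgent.LevelRaising FLTAgent.Degeneracy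

variable {p : ℕ} [Fact p.Prime] {W : WeierstrassCurve ℤ} {O : Type} [CommRing O] [IsDomain O]
  [IsDiscreteValuationRing O] [IsAdicComplete (maximalIdeal O) O] [Finite (ResidueField O)]
  [CharZero O] [CharP (ResidueField O) p] {S : LowerSetup p W O} {r n : ℕ}

/-- At a prime with trivial character the square of `U_t` on a combination of eigensymbols is the
square of the product of the twisting characters at `t`. -/
private theorem exists_sq_uOp (Q : TWData S r n) (tw : Bool) (hp2 : p ≠ 2) [IsLocalRing Q.Coef]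
    (ψ : Q.Coef →+* Kbar O) {t : ℕ} (ht : t ∈ S.loc) (ht' : tw = false ∨ t ∉ S.sites)
    {T : Finset ℕ} (hTsub : ∀ u ∈ T, u ∈ Q.level.primeFactors) (htT : t ∉ T)
    (hout : ∀ u ∈ Q.level.primeFactors, u ∉ T → (Q.chi tw u).ringHomComp ψ = 1)
    {d : ℕ} {b : Fin d → Cusp → Cusp → Q.Coef}
    (hb : ∀ i, b i ∈ eigenPart Q.Coef (Q.delta tw) Q.badSet
      (fun l => algebraMap O Q.Coef (S.lift l))) (v : Fin d → Kbar O) :
    ∃ γ : Kbar O, γ ≠ 0 ∧ ∏ u ∈ T, (Q.chi tw u).ringHomComp ψ (t : ZMod u) = γ ∧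
      uOp (Kbar O) t (uOp (Kbar O) t (comb (fun i => mapVal ψ (b i)) v)) =
        (γ * γ) • comb (fun i => mapVal ψ (b i)) v := by
  classical
  set L := Q.level with hLdef
  have : NeZero L := ⟨Q.level_ne_zero⟩
  obtain ⟨htP, htM⟩ := S.mem_loc ht
  have htL : t ∣ L := (htM.mul_right S.E).mul_right _
  have : Fact t.Prime := ⟨htP⟩
  have hsq := Q.squarefree_level
  -- the level without `t`
  set N₀ := L / t with hN₀def
  have hLN₀ : N₀ * t = L := Nat.div_mul_cancel htL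
  have htN₀ : ¬ t ∣ N₀ := fun h =>
    htP.not_isUnit (hsq t ((mul_dvd_mul_right h t).trans hLN₀.dvd))
  have : NeZero N₀ := ⟨fun h => Q.level_ne_zero (by rw [← hLdef, ← hLN₀, h, zero_mul])⟩
  have hPF : ∀ u, u ∈ N₀.primeFactors ↔ u ∈ L.primeFactors ∧ u ≠ t := fun u => by
    refine ⟨fun hu => ⟨Nat.primeFactors_mono (Nat.div_dvd_of_dvd htL) Q.level_ne_zero hu,
      fun e => htN₀ (e ▸ Nat.dvd_of_mem_primeFactors hu)⟩, fun ⟨hu, hne⟩ => ?_⟩
    obtain ⟨huP, huL, -⟩ := Nat.mem_primeFactors.mp hu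
    refine Nat.mem_primeFactors.mpr ⟨huP, (huP.dvd_mul.mp (hLN₀.symm ▸ huL)).resolve_right fun h =>
      hne ((Nat.prime_dvd_prime_iff_eq huP htP).mp h), NeZero.ne N₀⟩
  have htu : IsUnit (((t : ℤ)) : ZMod N₀) := by
    rw [Int.cast_natCast, ZMod.isUnit_iff_coprime, htP.coprime_iff_not_dvd]
    exact htN₀
  have htuu : ∀ u ∈ N₀.primeFactors, IsUnit ((t : ℕ) : ZMod u) := fun u hu => by
    have h := isUnit_of_dvd (Nat.dvd_of_mem_primeFactors hu) htu
    rwa [Int.cast_natCast] at h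
  -- the square root of the nebentype at `t`
  have hcu : IsUnit (∏ u ∈ N₀.primeFactors, Q.chi tw u (t : ZMod u)) :=
    IsUnit.prod_iff.mpr fun u hu => (htuu u hu).map (Q.chi tw u)
  obtain ⟨c, hc⟩ := hcu
  have hcc : (c : Q.Coef) * c = Q.deltaAway tw N₀ (t : ZMod N₀) := by
    have h := Q.deltaAway_apply tw htu
    simp only [Int.cast_natCast] at h
    rw [h, hc, Finset.prod_pow, sq]
  set γ : Kbar O := ψ (c : Q.Coef) with hγdef
  have hγ0 : γ ≠ 0 := (c.isUnit.map ψ).ne_zero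
  have hγT : ∏ u ∈ T, (Q.chi tw u).ringHomComp ψ (t : ZMod u) = γ := by
    rw [hγdef, hc, map_prod]
    refine Finset.prod_subset (fun u hu => (hPF u).mpr ⟨hTsub u hu, fun e => htT (e ▸ hu)⟩)
      fun u hu huT => ?_
    show (Q.chi tw u).ringHomComp ψ (t : ZMod u) = 1
    rw [hout u ((hPF u).mp hu).1 huT, MulChar.one_apply (htuu u hu)]
  refine ⟨γ, hγ0, hγT, ?_⟩
  set Φ := comb (fun i => mapVal ψ (b i)) v with hΦdef
  have hUUb : ∀ i, uOp Q.Coef t (uOp Q.Coef t (b i)) = ((c : Q.Coef) * c) • b i := fun i => by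
    refine uOp_uOp_of_bot htP htN₀ (Q.deltaAway tw N₀) c hcc Q.badSet
      (fun q hq h => Q.mem_badSet_of_dvd hq ((h.trans hLN₀.dvd).mul_right p))
      (Q.eigenPart_away_eq_bot tw hp2 ht) ?_
    rw [← Q.eigenPart_level_eq tw ht ht']
    exact hb i
  have hmapU : ∀ Ψ : Cusp → Cusp → Q.Coef,
      mapVal ψ (uOp Q.Coef t Ψ) = uOp (Kbar O) t (mapVal ψ Ψ) := fun Ψ => mapVal_pullFam ψ _ Ψ
  rw [hΦdef, HeckePoints.comb_apply, map_sum, map_sum, Finset.smul_sum]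
  refine Finset.sum_congr rfl fun i _ => ?_
  rw [map_smul, map_smul, ← hmapU, ← hmapU, hUUb i, mapVal_smul, map_mul, smul_comm]

omit [IsDiscreteValuationRing O] [IsAdicComplete (maximalIdeal O) O] [Finite (ResidueField O)]
  [CharZero O] [CharP (ResidueField O) p] in
/-- From `U_t ^ 2 = γ ^ 2` an eigensymbol of `U_t` with the same eigenvalues. -/
private theorem exists_uOp_eigen {L : ℕ} [NeZero L] {t : ℕ} (htP : t.Prime) (htL : t ∣ L)
    {δ : DirichletCharacter (Kbar O) L} {S0 : Finset ℕ}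
    (hSL : ∀ l, l.Prime → l ∣ L → l ∈ S0) {e : ℕ → Kbar O} {γ : Kbar O}
    {Φ : Cusp → Cusp → Kbar O} (hΦ : Φ ∈ SymbChar (Kbar O) δ) (hne : Φ ≠ 0)
    (ha' : ∀ l, l.Prime → l ∉ S0 → tOpChar (Kbar O) δ l Φ = e l • Φ)
    (hUU : uOp (Kbar O) t (uOp (Kbar O) t Φ) = (γ * γ) • Φ) :
    ∃ (ε : Kbar O) (Φ₁ : Cusp → Cusp → Kbar O),
      ε ^ 2 = γ ^ 2 ∧ Φ₁ ∈ SymbChar (Kbar O) δ ∧ Φ₁ ≠ 0 ∧
      (∀ l, l.Prime → l ∉ S0 → tOpChar (Kbar O) δ l Φ₁ = e l • Φ₁) ∧
      uOp (Kbar O) t Φ₁ = ε • Φ₁ := by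
  by_cases h : uOp (Kbar O) t Φ + γ • Φ = 0
  · exact ⟨-γ, Φ, by ring, hΦ, hne, ha', by rw [eq_neg_of_add_eq_zero_left h, neg_smul]⟩
  · refine ⟨γ, _, rfl, add_mem (uOp_mem_symbChar htP htL hΦ) (Submodule.smul_mem _ γ hΦ), h,
      fun l hl hlS => ?_, ?_⟩
    · rw [map_add, map_smul, tOpChar_uOp_comm hl htP (fun h' => hlS (hSL l hl h')) htL hΦ,
        ha' l hl hlS, map_smul, smul_add, smul_comm γ]
    · rw [map_add, map_smul, hUU, smul_add, smul_smul, add_comm]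

/-- The level of the twist, away from `t`. -/
private theorem twist_level_facts {L t : ℕ} {T : Finset ℕ} (hT : ∀ u ∈ T, u.Prime) (htP : t.Prime)
    (htmem : t ∈ L.primeFactors \ T) (hL0 : L ≠ 0)
    (hLM : L = (∏ u ∈ L.primeFactors \ T, u) * ∏ u ∈ T, u) {N : ℕ}
    (hNdef : N = (∏ u ∈ (L.primeFactors \ T).erase t, u) * ∏ u ∈ T, u ^ 2) :
    N * t = (∏ u ∈ L.primeFactors \ T, u) * ∏ u ∈ T, u ^ 2 ∧ N ≠ 0 ∧ ¬ t ∣ N ∧
      ∀ l, l.Prime → l ∣ N * t → l ∣ L := by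
  have htT : t ∉ T := (Finset.mem_sdiff.mp htmem).2
  set M := ∏ u ∈ L.primeFactors \ T, u with hMdef
  have hM0 : M ≠ 0 := fun h => hL0 (by rw [hLM, h, zero_mul])
  have hNt : N * t = M * ∏ u ∈ T, u ^ 2 := by
    rw [hNdef, hMdef, ← Finset.mul_prod_erase _ _ htmem]; ring
  refine ⟨hNt, fun h => mul_ne_zero hM0 (Finset.prod_ne_zero_iff.mpr fun u hu =>
    pow_ne_zero 2 (hT u hu).ne_zero) (by rw [← hNt, h, zero_mul]), fun h => ?_, fun l hl h => ?_⟩
  · rw [hNdef] at h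
    rcases htP.dvd_mul.mp h with h | h
    · obtain ⟨u, hu, htu'⟩ := htP.prime.exists_mem_finset_dvd h
      obtain ⟨hne', hu'⟩ := Finset.mem_erase.mp hu
      exact hne' ((Nat.prime_dvd_prime_iff_eq htP
        (Nat.prime_of_mem_primeFactors (Finset.mem_sdiff.mp hu').1)).mp htu').symm
    · obtain ⟨u, hu, htu'⟩ := htP.prime.exists_mem_finset_dvd h
      exact htT ((Nat.prime_dvd_prime_iff_eq htP (hT u hu)).mp (htP.dvd_of_dvd_pow htu') ▸ hu)
  · rw [hNt] at h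
    rw [hLM]
    rcases hl.dvd_mul.mp h with h | h
    · exact h.mul_right _
    · obtain ⟨u, hu, hlu⟩ := hl.prime.exists_mem_finset_dvd h
      exact ((hl.dvd_of_dvd_pow hlu).trans (Finset.dvd_prod_of_mem _ hu)).mul_left _

omit [IsAdicComplete (maximalIdeal O) O] [Finite (ResidueField O)] [CharZero O] in
/-- The traces are not Eisenstein, as the residual representation is irreducible. -/
private theorem exists_ne_one_add_of_frob (hp2 : p ≠ 2) {C : Type}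
    [CommRing C] [IsDomain C] [IsDiscreteValuationRing C] [Algebra O C]
    [IsLocalHom (algebraMap O C)] (j : C →ₐ[O] Kbar O) (hj : Function.Injective j) (S0 : Finset ℕ)
    {L : ℕ} (hL : L ≠ 0) {ρ : MatRep C} {e₁ : ℕ → C}
    (hresρ : ∀ g, residue C (ρ g).trace = ResidueField.map (algebraMap O C) (S.R.rep g).trace)
    (hfrob : ∀ l, l.Prime → l ∉ S0 → ∀ P : ValuationSubring Qbar, P.LiesOverPrime l → ∀ s,
      P.IsFrobeniusAt s l → (ρ s).trace = e₁ l) :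
    ∃ ℓ, ℓ.Prime ∧ ℓ ∉ S0 ∧ ℓ % L = 1 % L ∧ j (e₁ ℓ) ≠ 1 + ℓ := by
  obtain ⟨ℓ, hℓ, hℓS, hℓmod, hℓR⟩ := S.R.exists_ne_one_add hp2 S0 hL
  refine ⟨ℓ, hℓ, hℓS, hℓmod, fun he => ?_⟩
  obtain ⟨P, hP⟩ := Density.exists_liesOverPrime hℓ
  obtain ⟨s, hs⟩ := Density.exists_isFrobeniusAt P hℓ hP
  refine hℓR P hP s hs ((ResidueField.map (algebraMap O C)).injective ?_)
  have hcℓ : e₁ ℓ = 1 + (ℓ : C) := hj (by rw [he, map_add, map_one, map_natCast])
  rw [← hresρ s, hfrob ℓ hℓ hℓS P hP s hs, hcℓ]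
  simp

/-- **A newform of level exactly divisible by `t`.** -/
theorem TWData.exists_newform_dvd (Q : TWData S r n) (tw : Bool) (hp2 : p ≠ 2)
    [IsLocalRing Q.Coef]
    {C : Type} [CommRing C] [IsDomain C] [IsDiscreteValuationRing C]
    [IsAdicComplete (maximalIdeal C) C] [Finite (ResidueField C)] [CharZero C]
    [Algebra O C] [Module.Finite O C] [IsLocalHom (algebraMap O C)]
    (hpC : (p : C) ∈ maximalIdeal C) {φ : Q.Coef →ₐ[O] C} {a : ℕ → C} (E : Q.PointSymbol tw φ a)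
    {ρ : MatRep C} (H : Q.IsPointRep tw hpC φ a ρ)
    {t : ℕ} (ht : t ∈ S.loc) (ht' : tw = false ∨ t ∉ S.sites) :
    ∃ (M' : ℕ) (_ : NeZero M') (g : CuspForm (CongruenceSubgroup.Gamma0 M') 2),
      t ∣ M' ∧ ¬ t ^ 2 ∣ M' ∧ OnNewform hpC (Q.level * p).primeFactors ρ g := by
  classical
  obtain ⟨j, hj, d, b, hb, v, hne, ha, hres⟩ := E
  obtain ⟨hρ, hdet, hfrob, hresρ⟩ := H
  set ψ : Q.Coef →+* Kbar O := (j.comp φ).toRingHom with hψdef
  set L := Q.level with hLdef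
  have : NeZero L := ⟨Q.level_ne_zero⟩
  have hp : p.Prime := Fact.out
  obtain ⟨htP, htM⟩ := S.mem_loc ht
  have htL : t ∣ L := (htM.mul_right S.E).mul_right _
  have : Fact t.Prime := ⟨htP⟩
  -- the characters and the twisting primes
  let χ : ∀ u, DirichletCharacter (Kbar O) u := fun u => (Q.chi tw u).ringHomComp ψ
  have hχt : χ t = 1 := by
    show (Q.chi tw t).ringHomComp ψ = 1
    rw [Q.chi_eq_one_of_trivial tw ht ht', MulChar.ringHomComp_one]
  set T := L.primeFactors.filter fun u => χ u ^ 2 ≠ 1 with hTdef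
  have hTsub : ∀ u ∈ T, u ∈ L.primeFactors := fun u hu => (Finset.mem_filter.mp hu).1
  have hT : ∀ u ∈ T, u.Prime := fun u hu => Nat.prime_of_mem_primeFactors (hTsub u hu)
  have hχT : ∀ u ∈ T, χ u ^ 2 ≠ 1 := fun u hu => (Finset.mem_filter.mp hu).2
  have htT : t ∉ T := fun h => hχT t h (by rw [hχt, one_pow])
  have hout : ∀ u ∈ L.primeFactors, u ∉ T → χ u = 1 := fun u hu huT =>
    Q.chi_eq_one_of_sq ψ hp2 tw u (by
      by_contra h
      exact huT (Finset.mem_filter.mpr ⟨hu, h⟩))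
  obtain ⟨γ, hγ0, hγT, hUU⟩ := exists_sq_uOp Q tw hp2 ψ ht ht' hTsub htT hout hb v
  change ∏ u ∈ T, χ u (t : ZMod u) = γ at hγT
  -- the excluded primes
  set S0 := (Q.level * p).primeFactors with hS0
  have hLp0 : Q.level * p ≠ 0 := mul_ne_zero Q.level_ne_zero hp.ne_zero
  have hpS : p ∈ S0 := Nat.mem_primeFactors.mpr ⟨hp, dvd_mul_left _ _, hLp0⟩
  have hSL : ∀ l, l.Prime → l ∣ L → l ∈ S0 := fun l hl h =>
    Nat.mem_primeFactors.mpr ⟨hl, h.mul_right p, hLp0⟩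
  have hout' : ∀ l, l.Prime → l ∉ S0 → ¬ l ∣ Q.level * p := fun l hl hlS h =>
    hlS (Nat.mem_primeFactors.mpr ⟨hl, h, hLp0⟩)
  -- the eigensymbol
  set Φ := comb (fun i => mapVal ψ (b i)) v with hΦdef
  set δ := (Q.delta tw).ringHomComp ψ with hδdef
  have hΦ : Φ ∈ SymbChar (Kbar O) δ := Q.comb_mem_symbChar ψ tw b hb v
  have ha' : ∀ l, l.Prime → l ∉ S0 → tOpChar (Kbar O) δ l Φ = j (a l) • Φ := fun l hl hlS =>
    ha l hl (hout' l hl hlS)
  obtain ⟨ε, Φ₁, hε, hΦ₁, hne₁, ha₁, hU₁⟩ := exists_uOp_eigen htP htL hSL hΦ hne ha' hUU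
  -- the twist
  set M := ∏ u ∈ L.primeFactors \ T, u with hMdef
  have htmem : t ∈ L.primeFactors \ T :=
    Finset.mem_sdiff.mpr ⟨Nat.mem_primeFactors.mpr ⟨htP, htL, Q.level_ne_zero⟩, htT⟩
  have hLM : L = M * ∏ u ∈ T, u := Q.level_eq_mul_prod hTsub
  have hM0 : M ≠ 0 := fun h => Q.level_ne_zero (show L = 0 by rw [hLM, h, zero_mul])
  have hMT : ∀ u ∈ T, ¬ u ∣ M := fun u hu => Q.not_dvd_prod_sdiff hTsub hu
  set N := (∏ u ∈ (L.primeFactors \ T).erase t, u) * ∏ u ∈ T, u ^ 2 with hNdef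
  obtain ⟨hNt, hN0, htN, hNL⟩ := twist_level_facts hT htP htmem Q.level_ne_zero hLM hNdef
  have : NeZero N := ⟨hN0⟩
  have hSN : ∀ l, l.Prime → l ∣ N * t → l ∈ S0 := fun l hl h => hSL l hl (hNL l hl h)
  have hδ : ∀ d : ℤ, IsUnit (d : ZMod L) →
      δ (d : ZMod L) = ∏ u ∈ T, χ u (d : ZMod u) ^ 2 := fun d hd =>
    Q.delta_eq_prod_sq ψ hTsub tw hout hd
  obtain ⟨Ψ, hΨ, hΨ0, hΨa, hΨU⟩ := exists_twist_uOp htP T hT htT χ hχT M hM0 hMT hLM hNt
    (1 : DirichletCharacter (Kbar O) M) δ (1 : DirichletCharacter (Kbar O) (N * t))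
    (fun d hd => by
      rw [hδ d hd, MulChar.one_apply (isUnit_of_dvd ⟨_, hLM⟩ hd), one_mul])
    (fun d hd => by
      rw [MulChar.one_apply hd, MulChar.one_apply (isUnit_of_dvd ⟨_, hNt⟩ hd)])
    S0 hSL (fun l => j (a l)) ε Φ₁ hΦ₁ hne₁ ha₁ hU₁
  rw [symbChar_eq_lev] at hΨ
  -- its eigenvalues are the traces
  set e₁ : ℕ → C := fun l => φ (Ring.inverse (Q.scalar tw l)) * a l with he₁
  have hscal : ∀ l, l.Prime → l ∉ S0 →
      (∏ u ∈ T, (χ u)⁻¹ (l : ZMod u)) * j (a l) = j (e₁ l) := by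
    intro l hl hlS
    rw [Q.prod_chi_inv ψ hTsub tw hout hl fun h => hlS (hSL l hl h)]
    simp only [e₁, map_mul]
    rfl
  have hε' : ((∏ u ∈ T, (χ u)⁻¹ (t : ZMod u)) * ε) ^ 2 = 1 := by
    simp only [MulChar.inv_apply_eq_inv', Finset.prod_inv_distrib, hγT, mul_pow, hε]
    rw [← mul_pow, inv_mul_cancel₀ hγ0, one_pow]
  have hneis := exists_ne_one_add_of_frob hp2 j hj S0 (mul_ne_zero (NeZero.ne N) htP.ne_zero)
    hresρ (e₁ := e₁) hfrob
  obtain ⟨M', g, F, e, hM', htM', hg, hga⟩ := exists_newform_of_uOp_sq htP htN hΨ hΨ0 S0 hSN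
    (fun l => j (e₁ l))
    (fun l hl hlS => by
      rw [← tOpChar_one hl (fun h => hlS (hSN l hl h)), hΨa l hl hlS, hscal l hl hlS])
    hΨU hε' hneis
  have hM'0 : M' ≠ 0 := fun h => by
    rw [h, zero_dvd_iff] at hM'
    exact mul_ne_zero (NeZero.ne N) htP.ne_zero hM'
  have : NeZero M' := ⟨hM'0⟩
  refine ⟨M', ⟨hM'0⟩, g, htM', fun h => htN ?_, onNewform_of_coeff j.toRingHom hj hg hpS
    (fun q hq hqM => hSN q hq (hqM.trans hM')) hρ hdet e e₁ hga
    fun l hl hlS P hP s hs => hfrob l hl hlS P hP s hs⟩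
  exact Nat.dvd_of_mul_dvd_mul_right htP.pos ((sq t ▸ h.trans hM' :))

end FLTAgent.LevelLowering

end
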