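import Fermat.Agent.LevelLowering.Core.Bottom
import Fermat.Agent.LevelLowering.Core.Pair
import Fermat.Agent.LevelLowering.Core.SiteVars
import Fermat.Agent.LocalThree.DetLine
import Fermat.Agent.DefRing.Burnside

/-!
# The level and the characters of the twisted side

The level of Taylor–Wiles data is squarefree (`squarefree_level`), the characters of both sides
have odd order, so that each is trivial as soon as its square is (`chi_eq_one_of_sq`), and a
combination of eigensymbols of a side is a symbol with its nebentype (`comb_mem_symbChar`).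
Shared by the files of `LevelLowering.Points`.
-/

set_option autoImplicit false

noncomputable section

open IsLocalRing WeierstrassCurve

namespace FLTAgent.LevelLowering

open FLTAgent.Density (GalQ Qbar)
open FLTAgent.DefRing FLTAgent.ModularityLifting FLTAgent.GaloisAttach FLTAgent.HeckePoints
  FLTAgent.LevelRaising

/-- A representation with the traces of an absolutely irreducible one is absolutely irreducible. -/
theorem absIrreducibleOn_of_trace_eq {k : Type} [Field k] {M N : MatRep k}
    (htr : ∀ g, (M g).trace = (N g).trace) (hN : AbsIrreducibleOn N ⊤) : AbsIrreducibleOn M ⊤ :=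
  LocalThree.absIrreducibleOn_of_span (LocalThree.span_eq_top_of_trace_eq htr
    (DefRing.span_range_eq_top (algebraMap k (AlgebraicClosure k)) N fun v hv h =>
      hv (hN _ _ v fun σ _ => h σ)))

variable {p : ℕ} [Fact p.Prime] {W : WeierstrassCurve ℤ} {O : Type} [CommRing O] [IsDomain O]
  [IsDiscreteValuationRing O] {S : LowerSetup p W O} {r n : ℕ}

namespace TWData

variable (Q : TWData S r n)

theorem squarefree_level : Squarefree Q.level := by
  classical
  have hE : Squarefree S.E ∧ Nat.Coprime S.M S.E := by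
    by_cases h : p = 3
    · obtain ⟨hE, -, hEM, -⟩ := S.E_three h
      exact ⟨hE.squarefree, (hE.coprime_iff_not_dvd.mpr hEM).symm⟩
    · rw [S.E_eq h]
      exact ⟨squarefree_one, Nat.coprime_one_right _⟩
  have hME : Squarefree (S.M * S.E) := (Nat.squarefree_mul hE.2).mpr ⟨S.sqfree, hE.1⟩
  have hq : ∀ i, ¬ Q.q i ∣ S.M * S.E := fun i h =>
    Q.not_mem i (S.mem_badSet_of_dvd (Q.prime i) (h.mul_right p))
  have hprod : ∀ s : Finset (Fin r), Squarefree (∏ i ∈ s, Q.q i) := by
    intro s
    induction s using Finset.induction_on with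
    | empty => rw [Finset.prod_empty]; exact squarefree_one
    | insert i s his ih =>
      rw [Finset.prod_insert his]
      refine (Nat.squarefree_mul ?_).mpr ⟨(Q.prime i).squarefree, ih⟩
      refine Nat.Coprime.prod_right fun u hu => (Nat.coprime_primes (Q.prime i) (Q.prime u)).mpr ?_
      exact fun e => his (Q.inj e ▸ hu)
  refine (Nat.squarefree_mul ?_).mpr ⟨hME, hprod _⟩
  exact Nat.Coprime.prod_right fun u _ => ((Q.prime u).coprime_iff_not_dvd.mpr (hq u)).symm

theorem q_ne_of_site {v : ℕ} (hv : v ∈ S.sites) (i : Fin r) : Q.q i ≠ v := fun e => by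
  subst e
  exact Q.not_mem i (S.mem_badSet_of_dvd (Q.prime i)
    (((S.mem_loc (S.mem_sites hv).2.2.2.2).2.mul_right S.E).mul_right p))

omit [Fact (Nat.Prime p)] in
theorem site_mem_level {v : ℕ} (hv : v ∈ S.sites) : v ∈ Q.level.primeFactors :=
  Nat.mem_primeFactors.mpr ⟨(S.mem_sites hv).1,
    ((S.mem_loc (S.mem_sites hv).2.2.2.2).2.mul_right S.E).mul_right _, Q.level_ne_zero⟩

variable {K : Type} [CommRing K] (ψ : Q.Coef →+* K)

theorem chi_eq_one_of_sq (hp2 : p ≠ 2) (tw : Bool) (u : ℕ)
    (h : (Q.chi tw u).ringHomComp ψ ^ 2 = 1) : (Q.chi tw u).ringHomComp ψ = 1 := by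
  obtain ⟨k, hk⟩ := Q.exists_unitVal_pow tw u
  obtain ⟨m, hm⟩ : Odd (p ^ k) := ((Fact.out : p.Prime).odd_of_ne_two hp2).pow
  have h' : (Q.chi tw u).ringHomComp ψ ^ p ^ k = 1 := by
    rw [MulChar.ringHomComp_pow, chi, primeChar_pow_eq_one hk, MulChar.ringHomComp_one]
  rwa [hm, pow_succ, pow_mul, h, one_pow, one_mul] at h'

theorem chi_sq_ne_one [IsDomain K] [Algebra O K] (hp2 : p ≠ 2)
    (hψ : ∀ o, ψ (algebraMap O Q.Coef o) = algebraMap O K o)
    (hinj : Function.Injective (algebraMap O K)) {v : ℕ} (hv : v ∈ S.sites) :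
    (Q.chi true v).ringHomComp ψ ^ 2 ≠ 1 := by
  intro h
  obtain ⟨hvP, -, hv1, -⟩ := S.mem_sites hv
  have : Fact v.Prime := ⟨hvP⟩
  have h1 := congrArg (fun f : DirichletCharacter K v => f (unitGen v : ZMod v))
    (Q.chi_eq_one_of_sq ψ hp2 true v h)
  simp only [MulChar.ringHomComp_apply, Q.chi_gen, MulChar.one_apply_coe,
    Q.unitVal_of_ne true (Q.q_ne_of_site hv), if_true, hψ] at h1
  have hζ : S.siteRoot v = 1 := hinj (by rw [h1, map_one])
  have hspec := S.siteRoot_spec hv
  rw [hζ, IsPrimitiveRoot.iff_def] at hspec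
  have hpow : p ^ (v - 1).factorization p ∣ 1 := hspec.2 1 (one_pow 1)
  have hdvd : p ∣ v - 1 := by
    refine (Nat.modEq_iff_dvd' hvP.one_le).mp ?_
    show 1 % p = v % p
    rw [hv1, Nat.one_mod_eq_one]
    exact (Fact.out : p.Prime).ne_one
  have hpos := (Fact.out : p.Prime).factorization_pos_of_dvd (by have := hvP.two_le; omega) hdvd
  exact (Fact.out : p.Prime).ne_one
    (Nat.eq_one_of_dvd_one ((dvd_pow_self p hpos.ne').trans hpow))

variable {T : Finset ℕ} (hT : T ⊆ Q.level.primeFactors)

include hT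

/-- The level is the product of the twisting primes and the others. -/
theorem level_eq_mul_prod : Q.level = (∏ u ∈ Q.level.primeFactors \ T, u) * ∏ u ∈ T, u := by
  rw [Finset.prod_sdiff hT, Nat.prod_primeFactors_of_squarefree Q.squarefree_level]

omit [Fact (Nat.Prime p)] in
/-- A twisting prime does not divide the product of the other primes of the level. -/
theorem not_dvd_prod_sdiff {t : ℕ} (ht : t ∈ T) :
    ¬ t ∣ ∏ u ∈ Q.level.primeFactors \ T, u := fun h => by
  obtain ⟨w, hw, htw⟩ := (Nat.prime_of_mem_primeFactors (hT ht)).prime.exists_mem_finset_dvd h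
  obtain ⟨hwL, hwT⟩ := Finset.mem_sdiff.mp hw
  exact hwT ((Nat.prime_dvd_prime_iff_eq (Nat.prime_of_mem_primeFactors (hT ht))
    (Nat.prime_of_mem_primeFactors hwL)).mp htw ▸ ht)

variable (tw : Bool)
  (hout : ∀ u ∈ Q.level.primeFactors, u ∉ T → (Q.chi tw u).ringHomComp ψ = 1)

include hout

omit [Fact (Nat.Prime p)] in
/-- Powers of the characters may be multiplied over the twisting primes only. -/
theorem prod_chi_pow (e : ℕ) {d : ℤ} (hd : IsUnit (d : ZMod Q.level)) :
    ∏ u ∈ T, (Q.chi tw u).ringHomComp ψ (d : ZMod u) ^ e =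
      ψ (∏ u ∈ Q.level.primeFactors, Q.chi tw u (d : ZMod u) ^ e) := by
  rw [map_prod, Finset.prod_subset hT fun u hu huT => by
    rw [hout u hu huT, MulChar.one_apply, one_pow]
    have h := hd.map (ZMod.castHom (Nat.dvd_of_mem_primeFactors hu) (ZMod u))
    rwa [map_intCast] at h]
  exact Finset.prod_congr rfl fun u _ => by rw [map_pow]; rfl

omit [Fact (Nat.Prime p)] in
/-- The nebentype is the square of the product of the characters at the twisting primes. -/
theorem delta_eq_prod_sq {d : ℤ} (hd : IsUnit (d : ZMod Q.level)) :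
    (Q.delta tw).ringHomComp ψ (d : ZMod Q.level) =
      ∏ u ∈ T, (Q.chi tw u).ringHomComp ψ (d : ZMod u) ^ 2 := by
  rw [Q.prod_chi_pow ψ hT tw hout 2 hd, MulChar.ringHomComp_apply, Q.delta_apply tw hd]

omit [Fact (Nat.Prime p)] in
/-- Untwisting at `l` multiplies by the inverse scalar. -/
theorem prod_chi_inv [IsAdicComplete (maximalIdeal O) O] [Finite (ResidueField O)]
    [CharP (ResidueField O) p] [CharZero O] {l : ℕ} (hl : l.Prime) (hlL : ¬ l ∣ Q.level) :
    ∏ u ∈ T, ((Q.chi tw u).ringHomComp ψ)⁻¹ (l : ZMod u) =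
      ψ (Ring.inverse (Q.scalar tw l)) := by
  have hu : IsUnit ((l : ℤ) : ZMod Q.level) := by
    rw [Int.cast_natCast, ZMod.isUnit_iff_coprime, hl.coprime_iff_not_dvd]
    exact hlL
  have h1 : ∏ u ∈ T, (Q.chi tw u).ringHomComp ψ (l : ZMod u) = ψ (Q.scalar tw l) := by
    simpa [TWData.scalar] using Q.prod_chi_pow ψ hT tw hout 1 hu
  have h2 : (∏ u ∈ T, (Q.chi tw u).ringHomComp ψ (l : ZMod u)) *
      ∏ u ∈ T, ((Q.chi tw u).ringHomComp ψ)⁻¹ (l : ZMod u) = 1 := by
    rw [← Finset.prod_mul_distrib]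
    refine Finset.prod_eq_one fun t ht => ?_
    rw [← MulChar.mul_apply, mul_inv_cancel, MulChar.one_apply]
    rw [ZMod.isUnit_iff_coprime, hl.coprime_iff_not_dvd]
    exact fun h => hlL (h.trans (Nat.dvd_of_mem_primeFactors (hT ht)))
  rw [h1] at h2
  refine left_inv_eq_right_inv ?_ h2 |>.symm
  rw [← map_mul, Ring.inverse_mul_cancel _ (Q.isUnit_scalar tw hl hlL), map_one]

omit hout hT in
/-- A combination of eigensymbols of a side is a symbol with the nebentype of that side. -/
theorem comb_mem_symbChar [IsLocalRing Q.Coef] {d : ℕ} {a : ℕ → Q.Coef}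
    (b : Fin d → Cusp → Cusp → Q.Coef)
    (hb : ∀ i, b i ∈ eigenPart Q.Coef (Q.delta tw) Q.badSet a) (v : Fin d → K) :
    comb (fun i => mapVal ψ (b i)) v ∈ SymbChar K ((Q.delta tw).ringHomComp ψ) := by
  rw [HeckePoints.comb_apply]
  exact Submodule.sum_mem _ fun i _ => Submodule.smul_mem _ _ (mapVal_mem ψ
    ((mem_eigenPart_iff (fun q hq h => Q.mem_badSet_of_dvd hq (h.mul_right p))).mp (hb i)).1)

end TWData

end FLTAgent.LevelLowering

end
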