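import Fermat.Agent.LevelLowering.Core.Pair
import Fermat.Agent.LevelLowering.Points.TwSiteLevel
import Fermat.Agent.ModularityLifting.PointsDatum.Characters
import Fermat.Agent.ModularityLifting.Start.Transfer

/-!
# The twisting character of a level

The characters `chi` read through the cyclotomic characters give a character `galTwist` of the
Galois group whose value at Frobenius elements is the scalar of the twist.  A representation with
the traces of an absolutely irreducible one ramifies nowhere more (`eq_one_of_trace_map`).  Used by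
`LevelLowering.Points.TwPrime`.
-/

set_option autoImplicit false

noncomputable section

open IsLocalRing Matrix WeierstrassCurve

namespace FLTAgent.LevelLowering

open FLTAgent.Density (GalQ Qbar)
open FLTAgent.DefRing FLTAgent.ModularityLifting FLTAgent.GaloisAttach

variable {p : ℕ} [Fact p.Prime] {W : WeierstrassCurve ℤ} {O : Type} [CommRing O] [IsDomain O]
  [IsDiscreteValuationRing O] [CharP (ResidueField O) p] {S : LowerSetup p W O} {r n : ℕ}

namespace TWData

variable (Q : TWData S r n)

/-- The character at a prime, read through the cyclotomic character. -/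
def galFactor (tw : Bool) (t : ℕ) : GalQ →* Q.Coef :=
  if h : t.Prime then
    haveI : Fact t.Prime := ⟨h⟩
    (Q.chi tw t).toMonoidHom.comp ((Units.coeHom (ZMod t)).comp (ExtCitation.cycloChar t))
  else 1

omit [Fact (Nat.Prime p)] [CharP (ResidueField O) p] in
theorem galFactor_apply (tw : Bool) (t : ℕ) [Fact t.Prime] (σ : GalQ) :
    Q.galFactor tw t σ = Q.chi tw t ((ExtCitation.cycloChar t σ : (ZMod t)ˣ) : ZMod t) := by
  rw [galFactor, dif_pos Fact.out]
  rfl

/-- The twisting character of the Galois group. -/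
def galTwist (tw : Bool) : GalQ →* Q.Coef := ∏ t ∈ Q.level.primeFactors, Q.galFactor tw t

omit [Fact (Nat.Prime p)] [CharP (ResidueField O) p] in
theorem galTwist_apply (tw : Bool) (σ : GalQ) :
    Q.galTwist tw σ = ∏ t ∈ Q.level.primeFactors, Q.galFactor tw t σ :=
  MonoidHom.finsetProd_apply _ _ _

omit [Fact (Nat.Prime p)] [CharP (ResidueField O) p] in
theorem galTwist_frobenius (tw : Bool) {l : ℕ} (hl : l.Prime) (hlL : ¬ l ∣ Q.level)
    {A : ValuationSubring Qbar} (hA : A.LiesOverPrime l) {σ : GalQ} (hσ : A.IsFrobeniusAt σ l) :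
    Q.galTwist tw σ = Q.scalar tw l := by
  rw [galTwist_apply, scalar]
  refine Finset.prod_congr rfl fun t ht => ?_
  obtain ⟨htp, htL, -⟩ := Nat.mem_primeFactors.mp ht
  have : Fact t.Prime := ⟨htp⟩
  rw [galFactor_apply, PointsDatum.cycloChar_frobenius hl
    (fun h : l = t => hlL (h ▸ htL)) hA hσ]

omit [CharP (ResidueField O) p] in
theorem galTwist_inertia (tw : Bool) {q : ℕ} [Fact q.Prime] (hqL : q ∣ Q.level)
    {A : ValuationSubring Qbar} (hA : A.LiesOverPrime q) {σ : GalQ}
    (hσ : σ ∈ A.inertiaSubgroupIn ℚ) (hgen : ExtCitation.cycloChar q σ = unitGen q) :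
    Q.galTwist tw σ = Q.unitVal tw q := by
  have hq : q.Prime := Fact.out
  rw [galTwist_apply, Finset.prod_eq_single q (fun t ht htq => ?_)
    (fun h => absurd (Nat.mem_primeFactors.mpr ⟨hq, hqL, Q.level_ne_zero⟩) h),
    galFactor_apply, hgen, chi_gen]
  have : Fact t.Prime := ⟨Nat.prime_of_mem_primeFactors ht⟩
  rw [galFactor_apply, LanglandsTunnell.CFT.cycloChar_eq_one_of_mem_inertia hq (Ne.symm htq) hA hσ,
    Units.val_one, map_one]

theorem residue_galTwist (tw : Bool) (σ : GalQ) : residue Q.Coef (Q.galTwist tw σ) = 1 := by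
  rw [galTwist_apply, map_prod]
  refine Finset.prod_eq_one fun t ht => ?_
  have : Fact t.Prime := ⟨Nat.prime_of_mem_primeFactors ht⟩
  rw [galFactor_apply]
  exact Q.residue_chi tw Fact.out (Units.isUnit _)

omit [Fact (Nat.Prime p)] [CharP (ResidueField O) p] in
theorem galTwist_finite_level (tw : Bool) :
    ∃ L : IntermediateField ℚ Qbar, FiniteDimensional ℚ L ∧
      ∀ σ : GalQ, (∀ x ∈ L, σ x = x) → Q.galTwist tw σ = 1 := by
  have : ∀ t : Q.level.primeFactors, NeZero t.1 := fun t =>
    ⟨(Nat.prime_of_mem_primeFactors t.2).ne_zero⟩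
  choose ζ hζ using fun t : Q.level.primeFactors =>
    HasEnoughRootsOfUnity.exists_primitiveRoot Qbar t.1
  refine ⟨IntermediateField.adjoin ℚ (Set.range ζ),
    IntermediateField.finiteDimensional_adjoin fun z _ => Algebra.IsIntegral.isIntegral z,
    fun σ hσ => (Q.galTwist_apply tw σ).trans (Finset.prod_eq_one fun t ht => ?_)⟩
  have : Fact t.Prime := ⟨Nat.prime_of_mem_primeFactors ht⟩
  have h : ((ExtCitation.cycloChar t σ : (ZMod t)ˣ) : ZMod t) = 1 :=
    (ExtVanishing.cycChar_eq_one_iff _ (hζ ⟨t, ht⟩) σ).mpr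
      (hσ _ (IntermediateField.subset_adjoin ℚ _ ⟨⟨t, ht⟩, rfl⟩))
  rw [galFactor_apply, h, map_one]

end TWData

/-- An element acting trivially acts trivially in a representation with the same traces. -/
theorem eq_one_of_trace_map {k k' : Type} [Field k] [Field k'] (ι : k →+* k') {ρ₀ : MatRep k}
    (h₀ : AbsIrreducibleOn ρ₀ ⊤) {ρ : MatRep k'} (htr : ∀ g, (ρ g).trace = ι (ρ₀ g).trace)
    {σ : GalQ} (hσ : ρ₀ σ = 1) : ρ σ = 1 :=
  eq_one_of_trace
    (absIrreducibleOn_map (residue k') (absIrreducibleOn_of_trace_eq (N := mapRep ι ρ₀)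
      (fun g => by rw [htr, Start.mapRep_trace]) (absIrreducibleOn_map ι h₀)))
    fun y => by rw [htr, htr, map_mul, hσ, mul_one]

end FLTAgent.LevelLowering

end
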