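import Fermat.Agent.ModularityLifting.Points.UChar
import Fermat.Agent.ModularityLifting.Points.Coeff
import Fermat.Agent.ModularityLifting.Points.EigenBasis
import Fermat.Agent.ModularityLifting.Degeneracy.NewSymb

/-!
# Integral eigensymbols

An eigensymbol which is a combination over an algebraic closure of integral symbols gives one over
the coefficient ring (`exists_eigensymbol_coeff`); after a finite extension of the coefficients a
primitive one can be chosen to be an eigenvector of `U_q` (`exists_uOp_eigen_integral`).  Used by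
`LevelLowering.Points.TwPrime`.
-/

set_option autoImplicit false

noncomputable section

open IsLocalRing Polynomial

namespace FLTAgent.LevelLowering

open FLTAgent.LevelRaising FLTAgent.ModularityLifting FLTAgent.HeckePoints

/-- Polynomials in an operator commute with a semilinear map. -/
theorem map_aeval_of_semiconj {R R' M M' : Type} [CommRing R] [CommRing R'] [AddCommGroup M]
    [Module R M] [AddCommGroup M'] [Module R' M'] (σ : R →+* R') (G : M →ₛₗ[σ] M')
    (A : Module.End R M) (B : Module.End R' M') (h : ∀ m, G (A m) = B (G m)) (P : R[X]) (m : M) :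
    G (aeval A P m) = aeval B (P.map σ) (G m) := by
  induction P using Polynomial.induction_on' with
  | add P Q hP hQ =>
    rw [map_add, Polynomial.map_add, map_add, LinearMap.add_apply, LinearMap.add_apply, map_add,
      hP, hQ]
  | monomial k c =>
    have hpow : ∀ (k : ℕ) (m : M), G ((A ^ k) m) = (B ^ k) (G m) := by
      intro k
      induction k with
      | zero => simp
      | succ k ih =>
        intro m
        rw [pow_succ, pow_succ, Module.End.mul_apply, Module.End.mul_apply, ih, h]
    rw [Polynomial.map_monomial, aeval_monomial, aeval_monomial, Module.End.mul_apply,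
      Module.End.mul_apply, Module.algebraMap_end_apply, Module.algebraMap_end_apply,
      map_smulₛₗ, hpow]

/-- An operator killed on a vector by a product of linear factors has an eigenvector nearby. -/
theorem exists_eigen_of_roots {R M : Type} [CommRing R] [AddCommGroup M] [Module R M]
    (N : Module.End R M) (V : Submodule R M) (hV : ∀ m ∈ V, N m ∈ V) (s : Multiset R) {x : M}
    (hx : x ∈ V) (hx0 : x ≠ 0) (hs : aeval N (s.map fun r => X - C r).prod x = 0) :
    ∃ (r : R) (y : M), y ∈ V ∧ y ≠ 0 ∧ N y = r • y := by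
  induction s using Multiset.induction_on generalizing x with
  | empty =>
    rw [Multiset.map_zero, Multiset.prod_zero, map_one] at hs
    exact absurd hs hx0
  | cons r s ih =>
    rw [Multiset.map_cons, Multiset.prod_cons, mul_comm, map_mul, Module.End.mul_apply,
      map_sub, aeval_X, aeval_C, LinearMap.sub_apply, Module.algebraMap_end_apply] at hs
    by_cases h0 : N x - r • x = 0
    · exact ⟨r, x, hx, hx0, sub_eq_zero.mp h0⟩
    · exact ih (V.sub_mem (hV x hx) (V.smul_mem r hx)) h0 hs

variable {L : ℕ}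

/-- A nonzero common factor can be removed from a symbol. -/
theorem mem_symbChar_of_smul {R : Type} [CommRing R] [IsDomain R] {δ : DirichletCharacter R L}
    {g : R} (hg : g ≠ 0) {Φ : Cusp → Cusp → R} (h : g • Φ ∈ SymbChar R δ) :
    Φ ∈ SymbChar R δ := by
  obtain ⟨h1, h2⟩ := h
  refine ⟨fun x y z => mul_left_cancel₀ hg ?_, fun γ hγ x y => mul_left_cancel₀ hg ?_⟩
  · rw [mul_add]; exact h1 x y z
  · rw [mul_left_comm]; exact h2 γ hγ x y

/-- A nonzero symbol is a multiple of a primitive one. -/
theorem exists_primitive_symbol {R : Type} [CommRing R] [IsDomain R] [IsDiscreteValuationRing R]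
    {Φ : Cusp → Cusp → R} (hΦ : Φ ≠ 0) :
    ∃ (g : R) (Ψ : Cusp → Cusp → R), g ≠ 0 ∧ Φ = g • Ψ ∧ ∃ x y, IsUnit (Ψ x y) := by
  classical
  let I : Ideal R := Ideal.span (Set.range fun z : Cusp × Cusp => Φ z.1 z.2)
  obtain ⟨g, hg⟩ := (IsPrincipalIdealRing.principal I).principal
  have hg' : I = Ideal.span {g} := hg
  have hdvd : ∀ x y, ∃ c, Φ x y = g * c := fun x y =>
    Ideal.mem_span_singleton.mp (hg' ▸ Ideal.subset_span ⟨(x, y), rfl⟩)
  choose Ψ hΨ using hdvd
  have hg0 : g ≠ 0 := fun h => hΦ (funext fun x => funext fun y => by rw [hΨ, h, zero_mul]; rfl)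
  refine ⟨g, Ψ, hg0, funext fun x => funext fun y => hΨ x y, ?_⟩
  by_contra h
  push Not at h
  have hle : I ≤ Ideal.span {g} * maximalIdeal R := Ideal.span_le.mpr (by
    rintro _ ⟨z, rfl⟩
    show Φ z.1 z.2 ∈ Ideal.span {g} * maximalIdeal R
    rw [hΨ]
    exact Ideal.mul_mem_mul (Ideal.mem_span_singleton_self g) (h _ _))
  obtain ⟨c, hc, hgc⟩ := Ideal.mem_span_singleton_mul.mp
    (hle (hg' ▸ Ideal.mem_span_singleton_self g))
  exact hc ((mul_left_cancel₀ hg0 (hgc.trans (mul_one g).symm)).symm ▸ isUnit_one)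

/-- A combination over an overfield which is an eigensymbol gives an integral eigensymbol. -/
theorem exists_eigensymbol_coeff {R K : Type} [CommRing R] [IsDomain R] [IsDiscreteValuationRing R]
    [Field K] (j : R →+* K) (hj : Function.Injective j) {δ : DirichletCharacter R L} {d : ℕ}
    (b : Fin d → Cusp → Cusp → R) (hb : ∀ i, b i ∈ SymbChar R δ) (v : Fin d → K)
    (hne : comb (fun i => mapVal j (b i)) v ≠ 0) (P : ℕ → Prop) (a : ℕ → R)
    (ha : ∀ l, P l → tOpChar K (δ.ringHomComp j) l (comb (fun i => mapVal j (b i)) v) =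
      j (a l) • comb (fun i => mapVal j (b i)) v) :
    ∃ Φ ∈ SymbChar R δ, Φ ≠ 0 ∧ ∀ l, P l → tOpChar R δ l Φ = a l • Φ := by
  classical
  let E := FractionRing R
  let jE : E →+* K := IsFractionRing.lift hj
  have hjE : ∀ c, jE (algebraMap R E c) = j c := fun c => IsFractionRing.lift_algebraMap hj c
  let : Algebra E K := jE.toAlgebra
  set Φ := comb (fun i => mapVal j (b i)) v with hΦdef
  obtain ⟨x₀, hx₀⟩ := Function.ne_iff.mp hne
  obtain ⟨y₀, hy₀⟩ := Function.ne_iff.mp hx₀
  obtain ⟨ℓ, hℓ⟩ : ∃ ℓ : Module.Dual E K, ℓ (Φ x₀ y₀) ≠ 0 := by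
    by_contra h
    push Not at h
    exact hy₀ ((Module.forall_dual_apply_eq_zero_iff E _).mp h)
  have hℓj : ∀ c z, ℓ (j c * z) = algebraMap R E c * ℓ z := fun c z => by
    rw [← hjE, show jE (algebraMap R E c) * z = algebraMap R E c • z from rfl,
      map_smul, smul_eq_mul]
  have hcomb : ∀ x y, ℓ (Φ x y) = ∑ i, algebraMap R E (b i x y) * ℓ (v i) := fun x y => by
    rw [hΦdef, comb_apply]
    simp only [Finset.sum_apply, Pi.smul_apply, smul_eq_mul, mapVal, map_sum]
    exact Finset.sum_congr rfl fun i _ => by rw [mul_comm, hℓj]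
  have hw0 : (fun i => ℓ (v i)) ≠ 0 := fun h => hℓ (by
    rw [hcomb]
    exact Finset.sum_eq_zero fun i _ => by rw [congrFun h i, Pi.zero_apply, mul_zero])
  obtain ⟨c, u, hc, hu, -⟩ := exists_primitive (C := R) hw0
  have hval : ∀ x y, algebraMap R E (comb b u x y) = c * ℓ (Φ x y) := fun x y => by
    rw [hcomb, comb_apply, Finset.mul_sum]
    simp only [Finset.sum_apply, Pi.smul_apply, smul_eq_mul, map_sum, map_mul, hu]
    exact Finset.sum_congr rfl fun i _ => by ring
  refine ⟨comb b u, ?_, fun h => mul_ne_zero hc hℓ ?_, fun l hl => ?_⟩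
  · rw [comb_apply]
    exact Submodule.sum_mem _ fun i _ => Submodule.smul_mem _ _ (hb i)
  · rw [← hval, h, Pi.zero_apply, Pi.zero_apply, map_zero]
  · funext x y
    apply IsFractionRing.injective R E
    have h := congrArg (fun z : K => c * ℓ z) (congrFun (congrFun (ha l hl) x) y)
    simp only [Pi.smul_apply, smul_eq_mul, tOpChar, LinearMap.add_apply, LinearMap.smul_apply,
      LinearMap.sum_apply, Pi.add_apply, Finset.sum_apply, pull_apply, MulChar.ringHomComp_apply,
      map_add, map_sum, hℓj, mul_add] at h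
    simp only [Pi.smul_apply, smul_eq_mul, tOpChar, LinearMap.add_apply, LinearMap.smul_apply,
      LinearMap.sum_apply, Pi.add_apply, Finset.sum_apply, pull_apply, map_add, map_mul, map_sum,
      hval, ← Finset.mul_sum]
    linear_combination h

variable {O : Type} [CommRing O] [IsDomain O] [IsDiscreteValuationRing O]
  [IsAdicComplete (maximalIdeal O) O] [Finite (ResidueField O)] [CharZero O]

/-- After a finite extension, a primitive eigensymbol which is an eigenvector of `U_q`. -/
theorem exists_uOp_eigen_integral [NeZero L] {R : Type} [CommRing R] [IsDomain R]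
    [IsDiscreteValuationRing R] [Algebra O R] [Module.Finite O R] (j : R →ₐ[O] Kbar O)
    {δ : DirichletCharacter R L} {q : ℕ} (hq : q.Prime) (hqL : q ∣ L) (P : ℕ → Prop)
    (hP : ∀ l, P l → l.Prime ∧ ¬ l ∣ L) (a : ℕ → R) {Φ : Cusp → Cusp → R}
    (hΦ : Φ ∈ SymbChar R δ) (hΦ0 : Φ ≠ 0) (ha : ∀ l, P l → tOpChar R δ l Φ = a l • Φ)
    (hj : Function.Injective j) :
    ∃ (R' : Type) (_ : CommRing R') (_ : IsDomain R') (_ : IsDiscreteValuationRing R')
      (_ : IsAdicComplete (maximalIdeal R') R') (_ : Finite (ResidueField R')) (_ : CharZero R')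
      (_ : Algebra O R') (_ : Module.Finite O R') (_ : IsLocalHom (algebraMap O R'))
      (i : R →ₐ[O] R') (Ψ : Cusp → Cusp → R') (u : R'), Function.Injective i ∧
        Ψ ∈ SymbChar R' (δ.ringHomComp (i : R →+* R')) ∧ (∃ x y, IsUnit (Ψ x y)) ∧
        (∀ l, P l → tOpChar R' (δ.ringHomComp (i : R →+* R')) l Ψ = i (a l) • Ψ) ∧
        uOp R' q Ψ = u • Ψ := by
  classical
  have := finite_symbChar (R := R) δ
  let U : Module.End R (SymbChar R δ) :=
    (uOp R q).restrict fun _ h => uOp_mem_symbChar hq hqL h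
  obtain ⟨f, hf, hfU⟩ := LinearMap.exists_monic_and_aeval_eq_zero R U
  -- the roots
  let fK : (Kbar O)[X] := f.map (j : R →+* Kbar O)
  have hfK : fK.Monic := hf.map _
  have hroot : ∀ z ∈ fK.roots, IsIntegral O z := fun z hz => by
    let := (j : R →+* Kbar O).toAlgebra
    have : IsScalarTower O R (Kbar O) :=
      IsScalarTower.of_algebraMap_eq fun o => (j.commutes o).symm
    have : Algebra.IsIntegral O R := Algebra.IsIntegral.of_finite O R
    refine isIntegral_trans z ⟨f, hf, ?_⟩
    have h := (Polynomial.mem_roots hfK.ne_zero).mp hz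
    rw [Polynomial.IsRoot, Polynomial.eval_map] at h
    exact h
  obtain ⟨R', i1, i2, i3, i4, i5, i6, i7, i8, -, i9, i, j', hj', hi, hsub⟩ :=
    exists_coeff_extend O j (fK.roots.toFinset : Set (Kbar O)) (Finset.finite_toSet _)
      fun z hz => hroot z (Multiset.mem_toFinset.mp hz)
  have hinj : Function.Injective i := fun a c h => hj (by rw [← hi, ← hi, h])
  choose r hr using fun z : fK.roots.toFinset => hsub z.2
  let g : Kbar O → R' := fun z => if h : z ∈ fK.roots.toFinset then r ⟨z, h⟩ else 0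
  have hg : ∀ z ∈ fK.roots, j' (g z) = z := fun z hz => by
    have h : z ∈ fK.roots.toFinset := Multiset.mem_toFinset.mpr hz
    simp only [g, dif_pos h]
    exact hr ⟨z, h⟩
  have hsplit : f.map (i : R →+* R') = ((fK.roots.map g).map fun z => X - C z).prod := by
    refine Polynomial.map_injective (j' : R' →+* Kbar O) hj' ?_
    rw [Polynomial.map_map, show (j' : R' →+* Kbar O).comp (i : R →+* R') = (j : R →+* Kbar O) from
      RingHom.ext hi, Polynomial.map_multiset_prod, Multiset.map_map, Multiset.map_map]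
    show fK = _
    conv_lhs => rw [(IsAlgClosed.splits fK).eq_prod_roots_of_monic hfK]
    refine congrArg Multiset.prod (Multiset.map_congr rfl fun z hz => ?_)
    simp only [Function.comp_apply, Polynomial.map_sub, Polynomial.map_X, Polynomial.map_C,
      RingHom.coe_coe, hg z hz]
  -- the image of the symbol
  set δ' := δ.ringHomComp (i : R →+* R') with hδ'
  let G : (Cusp → Cusp → R) →ₛₗ[(i : R →+* R')] (Cusp → Cusp → R') :=
    { toFun := mapVal (i : R →+* R')
      map_add' := mapVal_add _
      map_smul' := mapVal_smul _ }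
  have h1 : aeval (uOp R q) f Φ = 0 := by
    have h := map_aeval_of_semiconj (RingHom.id R) (SymbChar R δ).subtype U (uOp R q)
      (fun _ => rfl) f ⟨Φ, hΦ⟩
    rw [hfU, Polynomial.map_id, LinearMap.zero_apply, map_zero] at h
    exact h.symm
  have h2 : aeval (uOp R' q) (f.map (i : R →+* R')) (G Φ) = 0 := by
    rw [← map_aeval_of_semiconj (i : R →+* R') G (uOp R q) (uOp R' q)
      (fun Ψ => Degeneracy.map_uOp (i : R →+* R') (q := q) Ψ) f Φ, h1, map_zero]
  let V : Submodule R' (Cusp → Cusp → R') := SymbChar R' δ' ⊓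
    ⨅ (l : ℕ) (_ : P l), LinearMap.ker (tOpChar R' δ' l - i (a l) • LinearMap.id)
  have hV : ∀ Ψ, Ψ ∈ V ↔ Ψ ∈ SymbChar R' δ' ∧ ∀ l, P l → tOpChar R' δ' l Ψ = i (a l) • Ψ :=
    fun Ψ => by simp [V, Submodule.mem_iInf, sub_eq_zero]
  have hstab : ∀ Ψ ∈ V, uOp R' q Ψ ∈ V := fun Ψ h => by
    obtain ⟨hs', hl'⟩ := (hV Ψ).mp h
    refine (hV _).mpr ⟨uOp_mem_symbChar hq hqL hs', fun l hl => ?_⟩
    rw [tOpChar_uOp_comm (hP l hl).1 hq (hP l hl).2 hqL hs', hl' l hl, map_smul]
  have hGV : G Φ ∈ V := (hV _).mpr ⟨mapVal_mem _ hΦ, fun l hl => by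
    show tOpChar R' δ' l (mapVal (i : R →+* R') Φ) = i (a l) • mapVal (i : R →+* R') Φ
    rw [← mapVal_tOpChar, ha l hl, mapVal_smul]
    rfl⟩
  have hG0 : G Φ ≠ 0 := fun h => hΦ0 (funext fun x => funext fun y => hinj
    ((congrFun (congrFun h x) y).trans (map_zero i).symm))
  obtain ⟨u, Ψ₀, hΨ₀, hΨ₀0, hu⟩ := exists_eigen_of_roots (uOp R' q) V hstab (fK.roots.map g) hGV
    hG0 (by rw [← hsplit]; exact h2)
  obtain ⟨hS₀, hT₀⟩ := (hV Ψ₀).mp hΨ₀
  obtain ⟨c, Ψ, hc, rfl, hunit⟩ := exists_primitive_symbol hΨ₀0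
  refine ⟨R', i1, i2, i3, i4, i5, i6, i7, i8, i9, i, Ψ, u, hinj, mem_symbChar_of_smul hc hS₀,
    hunit, fun l hl => smul_right_injective _ hc ?_, smul_right_injective _ hc ?_⟩
  · show c • _ = c • _
    rw [← map_smul, hT₀ l hl, smul_comm]
  · show c • _ = c • _
    rw [← map_smul, hu, smul_comm]

end FLTAgent.LevelLowering

end
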