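import Fermat.Agent.LevelLowering.Core.PointProps
import Fermat.Agent.LevelLowering.Core.Bottom
import Fermat.Agent.LevelLowering.Points.TwPrimeSymbol
import Fermat.Agent.LevelLowering.Points.TwPrimeChar
import Fermat.Agent.ModularityLifting.Degeneracy.TWOld
import Fermat.Agent.ModularityLifting.PointsDatum.Tame
import Fermat.Agent.LevelLowering.Points.Input

/-!
# The trace on inertia at a Taylor–Wiles prime

The representation of a point, multiplied by the twisting character, has an eigensymbol with an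
eigenvalue of `U` at the prime; its residue is a Frobenius eigenvalue, so the trace on inertia is
`1 + det` (`TWData.point_trace_twPrime`).  One of the properties assembled in `PointProps`.
-/

set_option autoImplicit false

noncomputable section

open IsLocalRing WeierstrassCurve

namespace FLTAgent.LevelLowering

open FLTAgent.Density (GalQ Qbar)
open FLTAgent.DefRing FLTAgent.ModularityLifting FLTAgent.GaloisAttach FLTAgent.HeckePoints
  FLTAgent.LevelRaising FLTAgent.PointsDatum.TWSet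

variable {p : ℕ} [Fact p.Prime] {W : WeierstrassCurve ℤ} {O : Type} [CommRing O] [IsDomain O]
  [IsDiscreteValuationRing O] [IsAdicComplete (maximalIdeal O) O] [Finite (ResidueField O)]
  [CharZero O] [CharP (ResidueField O) p] {S : LowerSetup p W O} {r n : ℕ}

section Steps

omit [IsAdicComplete (maximalIdeal O) O] [Finite (ResidueField O)] [CharZero O]
  [CharP (ResidueField O) p] in
/-- The facts about a prime of the datum and the level without it. -/
private theorem TWData.twPrime_level (Q : TWData S r n) (i : Fin r) :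
    ¬ Q.q i ∣ S.M * S.E * p ∧ Q.q i ≠ p ∧ Q.q i % p = 1 ∧ p ∣ Q.q i - 1 ∧
      Q.level = (S.M * S.E * ∏ k ∈ Finset.univ.erase i, Q.q k) * Q.q i ∧
      ¬ Q.q i ∣ S.M * S.E * ∏ k ∈ Finset.univ.erase i, Q.q k := by
  have hp : p.Prime := Fact.out
  have htP : (Q.q i).Prime := Q.prime i
  have htS : ¬ Q.q i ∣ S.M * S.E * p := fun h => Q.not_mem i (S.mem_badSet_of_dvd htP h)
  refine ⟨htS, fun e => htS (dvd_mul_of_dvd_right e.dvd _), ?_,
    (Q.q_sub_one i).elim fun c hc => ⟨p ^ n * c, by rw [hc, pow_succ]; ring⟩, ?_, fun h => ?_⟩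
  · rw [← Nat.mod_mod_of_dvd (Q.q i) (dvd_pow_self p (Nat.succ_ne_zero n)), Q.mod_pow i,
      Nat.one_mod_eq_one.mpr hp.ne_one]
  · rw [mul_assoc, Finset.prod_erase_mul _ _ (Finset.mem_univ i)]
    rfl
  · rcases htP.dvd_mul.mp h with h | h
    · exact htS (h.mul_right p)
    · obtain ⟨k, hk, hd⟩ := htP.prime.exists_mem_finset_dvd h
      exact (Finset.mem_erase.mp hk).1
        (Q.inj ((Nat.prime_dvd_prime_iff_eq htP (Q.prime k)).mp hd)).symm

omit [Fact p.Prime] [IsAdicComplete (maximalIdeal O) O] [Finite (ResidueField O)] [CharZero O]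
  [CharP (ResidueField O) p] in
/-- A root of the residual polynomial at the prime is one of two distinct roots. -/
private theorem TWData.exists_distinct_root (Q : TWData S r n) (i : Fin r) {k : Type} [Field k]
    (f : ResidueField O →+* k) {x T D : k} {A : ValuationSubring Qbar}
    (hA : A.LiesOverPrime (Q.q i)) {g : GalQ} (hg : A.IsFrobeniusAt g (Q.q i))
    (hT : T = f (S.R.rep g).trace) (hD : D = f (S.R.rep g).det)
    (hx : x ^ 2 - f (S.R.rep g).trace * x + f (S.R.rep g).det = 0) :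
    ∃ α β, α ≠ β ∧ α + β = T ∧ α * β = D ∧ x = α := by
  obtain ⟨α, β, hne, hs, hpr⟩ := Q.distinct i A hA g hg
  rw [← hs, ← hpr, map_add, map_mul] at hx
  have hr' : (x - f α) * (x - f β) = 0 := by linear_combination hx
  rcases mul_eq_zero.mp hr' with h | h
  · exact ⟨f α, f β, fun h => hne (f.injective h), by rw [hT, ← map_add, hs],
      by rw [hD, ← map_mul, hpr], sub_eq_zero.mp h⟩
  · exact ⟨f β, f α, fun h => hne (f.injective h).symm,
      by rw [hT, ← map_add, add_comm, hs], by rw [hD, ← map_mul, mul_comm, hpr],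
      sub_eq_zero.mp h⟩

variable {C C' : Type} [CommRing C] [IsDomain C] [IsDiscreteValuationRing C] [CommRing C']
  [IsDomain C'] [IsDiscreteValuationRing C'] [Algebra O C] [IsLocalHom (algebraMap O C)]
  [Algebra O C'] [IsLocalHom (algebraMap O C')]

omit [Fact p.Prime] [IsAdicComplete (maximalIdeal O) O] [Finite (ResidueField O)] [CharZero O]
  [CharP (ResidueField O) p] in
/-- Congruent residues stay congruent in an extension. -/
private theorem residue_algHom (ι : C →ₐ[O] C') [IsLocalHom (ι : C →+* C')] {c : C}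
    {o : ResidueField O} (h : residue C c = ResidueField.map (algebraMap O C) o) :
    residue C' (ι c) = ResidueField.map (algebraMap O C') o := by
  obtain ⟨o, rfl⟩ := residue_surjective o
  rw [ResidueField.map_residue] at h
  have h2 := congrArg (ResidueField.map (ι : C →+* C')) h
  rw [ResidueField.map_residue, ResidueField.map_residue] at h2
  simp only [RingHom.coe_coe, AlgHom.commutes] at h2
  rw [h2, ResidueField.map_residue]

omit [Fact p.Prime] [IsAdicComplete (maximalIdeal O) O] [Finite (ResidueField O)] [CharZero O]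
  [CharP (ResidueField O) p] [IsLocalHom (algebraMap O C)] [IsLocalHom (algebraMap O C')] in
/-- The representation multiplied by the twisting character is continuous. -/
private theorem TWData.matCont_twist (Q : TWData S r n) (tw : Bool) [IsLocalRing Q.Coef]
    (φ : Q.Coef →ₐ[O] C) (ι : C →ₐ[O] C') [IsLocalHom (ι : C →+* C')] {ρ : MatRep C}
    (hρ : MatCont ρ) :
    MatCont (twistRep ((ι.comp φ : Q.Coef →+* C').toMonoidHom.comp (Q.galTwist tw))
      (mapRep (ι : C →+* C') ρ)) := by
  intro m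
  obtain ⟨L1, hL1, h1⟩ := hρ.map (ι : C →+* C') ‹_› m
  obtain ⟨L2, hL2, h2⟩ := Q.galTwist_finite_level tw
  refine ⟨L1 ⊔ L2, inferInstance, fun g hg a c => ?_⟩
  have h := h1 g (fun y hy => hg y (SetLike.le_def.mp le_sup_left hy)) a c
  have e : twistRep ((ι.comp φ : Q.Coef →+* C').toMonoidHom.comp (Q.galTwist tw))
      (mapRep (ι : C →+* C') ρ) g = mapRep (ι : C →+* C') ρ g := by
    show ι (φ (Q.galTwist tw g)) • mapRep (ι : C →+* C') ρ g = _
    rw [h2 g fun y hy => hg y (SetLike.le_def.mp le_sup_right hy), map_one, map_one, one_smul]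
  rwa [e]

variable [IsAdicComplete (maximalIdeal C) C] [Finite (ResidueField C)]

omit [IsAdicComplete (maximalIdeal O) O] [Finite (ResidueField O)] [CharZero O]
  [CharP (ResidueField O) p] [IsDomain C'] [IsDiscreteValuationRing C']
  [IsLocalHom (algebraMap O C')] in
/-- The trace and determinant of the twisted representation at a good Frobenius element. -/
private theorem TWData.twist_frobenius (Q : TWData S r n) (tw : Bool) [IsLocalRing Q.Coef]
    (hpC : (p : C) ∈ maximalIdeal C) {φ : Q.Coef →ₐ[O] C} {a : ℕ → C} {ρ : MatRep C}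
    (H : Q.IsPointRep tw hpC φ a ρ) (ι : C →ₐ[O] C') {l : ℕ} (hl : l.Prime)
    (hlS : l ∉ (Q.level * p).primeFactors) {A : ValuationSubring Qbar} (hA : A.LiesOverPrime l)
    {g : GalQ} (hg : A.IsFrobeniusAt g l) :
    let ρ' := twistRep ((ι.comp φ : Q.Coef →+* C').toMonoidHom.comp (Q.galTwist tw))
      (mapRep (ι : C →+* C') ρ)
    (ρ' g).trace = ι (a l) ∧ (ρ' g).det =
      l * (Q.delta tw).ringHomComp (ι.comp φ : Q.Coef →+* C') (l : ZMod Q.level) := by
  intro ρ'
  obtain ⟨-, hdet, hfrob, -⟩ := H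
  have hlLp : ¬ l ∣ Q.level * p := fun hd => hlS (Nat.mem_primeFactors.mpr
    ⟨hl, hd, mul_ne_zero Q.level_ne_zero (Fact.out : p.Prime).ne_zero⟩)
  have hlL := Q.not_dvd_of_not_dvd_mul hlLp
  have hlp : l ≠ p := fun e => hlLp (by rw [e]; exact dvd_mul_left p _)
  have hψg : (ι.comp φ : Q.Coef →+* C').toMonoidHom.comp (Q.galTwist tw) g =
      ι (φ (Q.scalar tw l)) := by
    show ι (φ (Q.galTwist tw g)) = _
    rw [Q.galTwist_frobenius tw hl hlL hA hg]
  refine ⟨?_, ?_⟩
  · rw [trace_twistRep, hψg, Start.mapRep_trace, RingHom.coe_coe,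
      hfrob l hl hlS A hA g hg, ← map_mul, ← mul_assoc, ← map_mul,
      Ring.mul_inverse_cancel _ (Q.isUnit_scalar tw hl hlL), map_one, one_mul]
  · rw [det_twistRep, Start.mapRep_det, hdet, RingHom.coe_coe, hψg,
      cycChar_frobenius hpC hl hlp hA hg, map_natCast, MulChar.ringHomComp_apply,
      ← Q.scalar_sq tw hl hlL, map_mul, pow_two, mul_comm (l : C')]
    rfl

/-- The residual representation of the twisted representation. -/
private theorem TWData.twist_residual (Q : TWData S r n) (tw : Bool) (hp2 : p ≠ 2) (i : Fin r)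
    [IsLocalRing Q.Coef] (hpC : (p : C) ∈ maximalIdeal C) {φ : Q.Coef →ₐ[O] C} {a : ℕ → C}
    {ρ : MatRep C} (H : Q.IsPointRep tw hpC φ a ρ) (ι : C →ₐ[O] C') [IsLocalHom (ι : C →+* C')]
    [IsLocalHom (ι.comp φ : Q.Coef →+* C')] :
    let ρb := mapRep (residue C') (twistRep
      ((ι.comp φ : Q.Coef →+* C').toMonoidHom.comp (Q.galTwist tw)) (mapRep (ι : C →+* C') ρ))
    let ι' := ResidueField.map (algebraMap O C')
    (∀ g, (ρb g).trace = ι' (S.R.rep g).trace) ∧ AbsIrreducibleOn ρb ⊤ ∧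
      UnramifiedAt ρb (Q.q i) ∧
      ∀ A : ValuationSubring Qbar, A.LiesOverPrime (Q.q i) → ∀ g,
        A.IsFrobeniusAt g (Q.q i) → (ρb g).det = ι' (S.R.rep g).det := by
  intro ρb ι'
  obtain ⟨-, hdet, -, hresρ⟩ := H
  obtain ⟨htS, htp, -⟩ := Q.twPrime_level i
  have htP : (Q.q i).Prime := Q.prime i
  set φ' : Q.Coef →ₐ[O] C' := ι.comp φ
  set ψ : GalQ →* C' := (φ' : Q.Coef →+* C').toMonoidHom.comp (Q.galTwist tw)
  set res := residue C'
  have hψres : ∀ g, res (ψ g) = 1 := fun g => by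
    show res ((φ' : Q.Coef →+* C') (Q.galTwist tw g)) = 1
    rw [← ResidueField.map_residue, Q.residue_galTwist, map_one]
  have htr : ∀ g, (ρb g).trace = ι' (S.R.rep g).trace := fun g => by
    rw [Start.mapRep_trace, trace_twistRep, map_mul, hψres, one_mul, Start.mapRep_trace]
    exact residue_algHom ι (hresρ g)
  refine ⟨htr, absIrreducibleOn_of_trace_eq (N := mapRep ι' S.R.rep)
    (fun g => by rw [htr, Start.mapRep_trace]) (absIrreducibleOn_map ι' S.R.irr),
    fun A hA τ hτ => eq_one_of_trace_map ι' S.R.irr htr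
      (S.unramified_of_not_dvd hp2 htP htS A hA τ hτ), fun A hA g hg => ?_⟩
  rw [Start.mapRep_det, det_twistRep, map_mul, map_pow, hψres, one_pow, one_mul,
    Start.mapRep_det, hdet, RingHom.coe_coe, cycChar_frobenius hpC htP htp hA hg, map_natCast,
    map_natCast,
    PointsDatum.det_frobenius_residual (Fact.out : p.Prime) S.R.det htP htp hA hg, map_natCast]

omit [IsAdicComplete (maximalIdeal C) C] [Finite (ResidueField C)] in
/-- The residue of the eigenvalue of `U` at the prime is a root of the residual polynomial. -/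
private theorem TWData.twPrime_root (Q : TWData S r n) (tw : Bool) (hp2 : p ≠ 2) (i : Fin r)
    [IsLocalRing Q.Coef] [IsAdicComplete (maximalIdeal C') C'] [Finite (ResidueField C')]
    [CharZero C'] [CharP (ResidueField C') p] (φ' : Q.Coef →ₐ[O] C')
    [IsLocalHom (φ' : Q.Coef →+* C')] {Ψ : Cusp → Cusp → C'}
    (hΨ : Ψ ∈ SymbChar C' ((Q.delta tw).ringHomComp (φ' : Q.Coef →+* C'))) {a' : ℕ → C'}
    (hΨa : ∀ l, l.Prime ∧ ¬ l ∣ Q.level * p →
      tOpChar C' ((Q.delta tw).ringHomComp (φ' : Q.Coef →+* C')) l Ψ = a' l • Ψ)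
    (hres : ∀ l, l.Prime → l ∉ Q.badSet →
      residue C' (a' l) = ResidueField.map (algebraMap O C') (residue O (S.lift l)))
    (hΨ0 : mapVal (residue C') Ψ ≠ 0) {u : C'} (hu : uOp C' (Q.q i) Ψ = u • Ψ)
    {A : ValuationSubring Qbar} (hA : A.LiesOverPrime (Q.q i)) {g : GalQ}
    (hg : A.IsFrobeniusAt g (Q.q i)) :
    residue C' u ^ 2 - ResidueField.map (algebraMap O C') (S.R.rep g).trace * residue C' u +
      ResidueField.map (algebraMap O C') (S.R.rep g).det = 0 := by
  classical
  obtain ⟨htS, htp, htmod, -, hL, hMt⟩ := Q.twPrime_level i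
  have htP : (Q.q i).Prime := Q.prime i
  have : NeZero Q.level := ⟨Q.level_ne_zero⟩
  set M := S.M * S.E * ∏ k ∈ Finset.univ.erase i, Q.q k
  have : NeZero M := ⟨left_ne_zero_of_mul (hL ▸ Q.level_ne_zero)⟩
  have hSL : ∀ l, l.Prime → l ∣ Q.level → l ∈ Q.badSet := fun l hl h =>
    Q.mem_badSet_of_dvd hl (h.mul_right p)
  set ι' := ResidueField.map (algebraMap O C') with hι'
  set res := residue C'
  set δ' := (Q.delta tw).ringHomComp (φ' : Q.Coef →+* C') with hδ'
  have hR : UnramifiedAt S.R.rep (Q.q i) := S.unramified_of_not_dvd hp2 htP htS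
  have hresSL : ∀ l, l.Prime → l ∉ Q.badSet → l ∉ S.badSet := fun l hl h h' =>
    h (Finset.mem_union_left _ h')
  have hρc : MatCont (mapRep ι' S.R.rep) := by
    obtain ⟨L, hL', hfix⟩ := S.R.finite
    refine fun m => ⟨L, hL', fun τ hτ a c => ?_⟩
    rw [Start.mapRep_eq, hfix τ hτ, map_one, sub_self]
    exact zero_mem _
  have hell : p = 3 → ∃ s, s.Prime ∧ s ∣ M ∧ s % 3 = 2 := fun h3 =>
    ⟨S.E, (S.E_three h3).1, (dvd_mul_left S.E S.M).mul_right _, (S.E_three h3).2.1⟩
  have hδres : δ'.ringHomComp res = 1 := MulChar.ext fun x => by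
    have h := DFunLike.congr_fun (Q.delta_residue tw) (x : ZMod Q.level)
    rw [MulChar.ringHomComp_apply, MulChar.one_apply_coe] at h
    rw [MulChar.one_apply_coe, MulChar.ringHomComp_apply, hδ', MulChar.ringHomComp_apply,
      ← ResidueField.map_residue, h, map_one]
  have hmem : mapVal res Ψ ∈ eigenPart (ResidueField C') (δ'.ringHomComp res) Q.badSet
      (res ∘ fun l => algebraMap O C' (S.lift l)) := by
    refine (mem_eigenPart_iff hSL).mpr ⟨mapVal_mem res hΨ, fun l hl hlS m => ⟨1, ?_⟩⟩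
    rw [pow_one, shiftOp_apply, ← mapVal_tOpChar,
      hΨa l ⟨hl, fun hd => hlS (Q.mem_badSet_of_dvd hl hd)⟩, mapVal_smul, Function.comp_apply,
      hres l hl hlS, hι', ResidueField.map_residue, sub_self]
    exact zero_mem _
  rw [← Start.mapRep_trace ι' g, ← Start.mapRep_det ι' g]
  refine PointsDatum.root_of_twPrime p hp2 hL htP htp hMt htmod Q.badSet
    (fun l hl h => Q.mem_badSet_of_dvd hl h) hell _ hρc (Start.detCyclotomic_map _ S.R.det)
    (Start.absIrreducibleOn_map _ S.R.irr) (Start.unramifiedAt_map _ hR) (fun A' hA' τ hτ => ?_)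
    (fun l => algebraMap O C' (S.lift l)) (fun l hl hlS A' hA' τ hτ => ?_) ?_
    (δ'.ringHomComp res) hδres hA hg hmem hΨ0
    (by rw [← Degeneracy.map_uOp, hu, mapVal_smul])
  · obtain ⟨α, β, hne, hs, hpr⟩ := Q.distinct i A' hA' τ hτ
    exact ⟨ι' α, ι' β, fun h => hne (ι'.injective h),
      by rw [← map_add, hs, Start.mapRep_trace],
      by rw [← map_mul, hpr, Start.mapRep_det]⟩
  · rw [Start.mapRep_trace, ← S.residue_lift hl (hresSL l hl hlS) A' hA' τ hτ, hι',
      ResidueField.map_residue]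
  · obtain ⟨ℓ, hℓ, hℓS, hmod, h⟩ := S.R.exists_ne_one_add hp2 Q.badSet Q.level_ne_zero
    refine ⟨ℓ, hℓ, hℓS, hmod, fun he => ?_⟩
    obtain ⟨P, hP⟩ := Density.exists_liesOverPrime hℓ
    obtain ⟨s, hs⟩ := Density.exists_isFrobeniusAt P hℓ hP
    refine h P hP s hs (ι'.injective ?_)
    rw [← S.residue_lift hℓ (hresSL ℓ hℓ hℓS) P hP s hs, hι', ResidueField.map_residue, he]
    simp only [map_add, map_one, map_natCast]

end Steps

/-- **The trace on inertia at a Taylor–Wiles prime.** -/
theorem TWData.point_trace_twPrime (Q : TWData S r n) (tw : Bool) (hp2 : p ≠ 2)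
    [IsLocalRing Q.Coef]
    {C : Type} [CommRing C] [IsDomain C] [IsDiscreteValuationRing C]
    [IsAdicComplete (maximalIdeal C) C] [Finite (ResidueField C)] [CharZero C]
    [Algebra O C] [Module.Finite O C] [IsLocalHom (algebraMap O C)]
    (hpC : (p : C) ∈ maximalIdeal C) {φ : Q.Coef →ₐ[O] C} {a : ℕ → C} (E : Q.PointSymbol tw φ a)
    {ρ : MatRep C} (H : Q.IsPointRep tw hpC φ a ρ)
    (i : Fin r) : haveI : Fact (Q.q i).Prime := ⟨Q.prime i⟩
    ∀ σ ∈ (Start.place (Q.q i)).inertiaSubgroupIn ℚ,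
      ExtCitation.cycloChar (Q.q i) σ = unitGen (Q.q i) →
      (ρ σ).trace * φ (Q.unitVal tw (Q.q i)) =
        φ (Q.unitVal tw (Q.q i)) * φ (Q.unitVal tw (Q.q i)) + 1 := by
  classical
  obtain ⟨j, hj, d, b, hb, v, hne, ha, hres⟩ := E
  have : Fact (Q.q i).Prime := ⟨Q.prime i⟩
  intro σ hσ hgen
  have hp : p.Prime := Fact.out
  -- the prime and the level without it
  set t := Q.q i with htdef
  have htP : t.Prime := Q.prime i
  obtain ⟨htS, htp, -, ht1, hL, hMt⟩ := Q.twPrime_level i
  set M := S.M * S.E * ∏ k ∈ Finset.univ.erase i, Q.q k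
  have htL : t ∣ Q.level := hL ▸ dvd_mul_left t M
  have : NeZero Q.level := ⟨Q.level_ne_zero⟩
  have : NeZero M := ⟨left_ne_zero_of_mul (hL ▸ Q.level_ne_zero)⟩
  have hSL : ∀ l, l.Prime → l ∣ Q.level → l ∈ Q.badSet := fun l hl h =>
    Q.mem_badSet_of_dvd hl (h.mul_right p)
  -- an integral eigensymbol and a primitive one which is an eigenvector at `t`
  obtain ⟨Φ, hΦ, hΦ0, hΦa⟩ := exists_eigensymbol_coeff (j : C →+* Kbar O) hj
    (δ := (Q.delta tw).ringHomComp (φ : Q.Coef →+* C)) (fun k => mapVal (φ : Q.Coef →+* C) (b k))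
    (fun k => mapVal_mem _ ((mem_eigenPart_iff hSL).mp (hb k)).1) v hne
    (fun l => l.Prime ∧ ¬ l ∣ Q.level * p) a fun l hl => ha l hl.1 hl.2
  obtain ⟨C', _, _, _, _, _, _, _, _, _, ι, Ψ, u, hι, hΨ, ⟨x₀, y₀, hunit⟩, hΨa, hu⟩ :=
    exists_uOp_eigen_integral j htP htL (fun l => l.Prime ∧ ¬ l ∣ Q.level * p)
      (fun l hl => ⟨hl.1, Q.not_dvd_of_not_dvd_mul hl.2⟩) a hΦ hΦ0 hΦa hj
  set φ' : Q.Coef →ₐ[O] C' := ι.comp φ with hφ'
  have : IsLocalHom (φ' : Q.Coef →+* C') := PointsDatum.isLocalHom_of_finite φ'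
  have : IsLocalHom (ι : C →+* C') := PointsDatum.isLocalHom_of_finite ι
  set ι' := ResidueField.map (algebraMap O C') with hι'
  have : CharP (ResidueField C') p := charP_of_injective_ringHom ι'.injective p
  set δ' := (Q.delta tw).ringHomComp (φ' : Q.Coef →+* C') with hδ'
  set res := residue C'
  have hδeq : ((Q.delta tw).ringHomComp (φ : Q.Coef →+* C)).ringHomComp (ι : C →+* C') = δ' := rfl
  rw [hδeq] at hΨ hΨa
  -- the representation multiplied by the twisting character
  set ρ' := twistRep ((φ' : Q.Coef →+* C').toMonoidHom.comp (Q.galTwist tw))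
    (mapRep (ι : C →+* C') ρ) with hρ'
  obtain ⟨htr', hirr, hunr, hdet'⟩ := Q.twist_residual tw hp2 i hpC H ι
  have hnot : ∀ {l : ℕ}, l.Prime → l ∉ (Q.level * p).primeFactors → ¬ l ∣ Q.level * p :=
    fun hl h hd => h (Nat.mem_primeFactors.mpr ⟨hl, hd, mul_ne_zero Q.level_ne_zero hp.ne_zero⟩)
  -- the eigenvalue at `t` is residually an eigenvalue of Frobenius
  have hΨ0 : mapVal res Ψ ≠ 0 := fun h =>
    (residue_ne_zero_iff_isUnit _).mpr hunit (congrFun (congrFun h x₀) y₀)
  -- the trace formula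
  have hδord : ∀ x : (ZMod Q.level)ˣ, ∃ k, δ' x ^ p ^ k = 1 := fun x => by
    obtain ⟨k, hk⟩ := Q.exists_delta_pow tw x
    exact ⟨k, by rw [hδ', MulChar.ringHomComp_apply, ← map_pow, hk, map_one]⟩
  have key := PointsDatum.trace_inertia_of_twPrime_level p hp2 hL htP htp hMt ht1 δ' hδord
    (Q.level * p).primeFactors
    (fun q hq h => Nat.mem_primeFactors.mpr ⟨hq, h, mul_ne_zero Q.level_ne_zero hp.ne_zero⟩)
    (fun l => ι (a l)) Ψ hΨ (fun h => hΨ0 (by rw [h, mapVal_zero]))
    (fun l hl hlS => hΨa l ⟨hl, hnot hl hlS⟩) u hu ρ' (Q.matCont_twist tw φ ι H.cont)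
    (fun l hl hlS A hA g hg => Q.twist_frobenius tw hpC H ι hl hlS hA hg) hirr hunr
    (fun A hA g hg => Q.exists_distinct_root i ι' hA hg (htr' g) (hdet' A hA g hg)
      (Q.twPrime_root tw hp2 i φ' hΨ hΨa
        (fun l hl hlS => residue_algHom ι (hres l hl hlS)) hΨ0 hu hA hg))
    (Start.place t) (Start.place_spec t htP) σ hσ
  have hcyc : cycChar hpC σ = 1 := by
    rw [cycChar_apply, cyc_inertia p htP htp (Start.place_spec t htP) hσ, map_one]
  have hψapp : (φ' : Q.Coef →+* C').toMonoidHom.comp (Q.galTwist tw) σ =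
      ι (φ (Q.galTwist tw σ)) := rfl
  rw [hρ', det_twistRep, Start.mapRep_det, H.det, trace_twistRep, hψapp,
    Q.galTwist_inertia tw htL (Start.place_spec t htP) hσ hgen,
    Start.mapRep_trace, hcyc, map_one, mul_one] at key
  refine hι ?_
  rw [map_mul, map_add, map_mul, map_one]
  simp only [RingHom.coe_coe] at key
  linear_combination key

end FLTAgent.LevelLowering

end
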