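import Fermat.Agent.LevelLowering.Core.PointProps
import Fermat.Agent.LevelLowering.Core.Pair
import Fermat.Agent.LevelLowering.Points.TwSiteLevel
import Fermat.Agent.LevelLowering.Twist.Iterate
import Fermat.Agent.LevelLowering.Twist.Kernel
import Fermat.Agent.LevelLowering.Site.Newform
import Fermat.Agent.LevelLowering.Points.Input

/-!
# Inertia at a twisted site

On the twisted side a point at a site `t` twists to a symbol of level divisible by `t ^ 2` killed by
`U_t` and by the trace, hence lies on a newform of level exactly divisible by `t ^ 2`, so inertia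
at `t` is not unipotent (`TWData.point_twSite`, using Carayol's theorem).
-/

set_option autoImplicit false

noncomputable section

open IsLocalRing WeierstrassCurve
namespace FLTAgent.LevelLowering
open FLTAgent.Density (GalQ Qbar)
open FLTAgent.DefRing FLTAgent.ModularityLifting FLTAgent.GaloisAttach FLTAgent.HeckePoints
  FLTAgent.LevelRaising

variable {p : ℕ} [Fact p.Prime] {W : WeierstrassCurve ℤ} {O : Type} [CommRing O] [IsDomain O]
  [IsDiscreteValuationRing O] [IsAdicComplete (maximalIdeal O) O] [Finite (ResidueField O)]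
  [CharZero O] [CharP (ResidueField O) p] {S : LowerSetup p W O} {r n : ℕ}

/-- **Inertia at a twisted site is not unipotent.** -/
theorem TWData.point_twSite (Q : TWData S r n) (tw : Bool) (hp2 : p ≠ 2)
    [IsLocalRing Q.Coef]
    {C : Type} [CommRing C] [IsDomain C] [IsDiscreteValuationRing C]
    [IsAdicComplete (maximalIdeal C) C] [Finite (ResidueField C)] [CharZero C]
    [Algebra O C] [Module.Finite O C] [IsLocalHom (algebraMap O C)]
    (hpC : (p : C) ∈ maximalIdeal C) {φ : Q.Coef →ₐ[O] C} {a : ℕ → C} (E : Q.PointSymbol tw φ a)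
    {ρ : MatRep C} (H : Q.IsPointRep tw hpC φ a ρ)
    (htw : tw = true) {t : ℕ} (ht : t ∈ S.sites) :
    ∃ σ ∈ (Start.place t).inertiaSubgroupIn ℚ, (ρ σ).trace ≠ 2 := by
  classical
  obtain ⟨j, hj, d, b, hb, v, hne, ha, hres⟩ := E
  obtain ⟨hρ, hdet, hfrob, hresρ⟩ := H
  subst htw
  set ψ : Q.Coef →+* Kbar O := (j.comp φ).toRingHom with hψdef
  set L := Q.level
  have : NeZero L := ⟨Q.level_ne_zero⟩
  have : Fact t.Prime := ⟨(S.mem_sites ht).1⟩
  have hp : p.Prime := Fact.out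
  obtain ⟨htP, htp, -, -, -⟩ := S.mem_sites ht
  -- the characters and the twisting primes
  let χ : ∀ u, DirichletCharacter (Kbar O) u := fun u => (Q.chi true u).ringHomComp ψ
  set T := L.primeFactors.filter fun u => χ u ^ 2 ≠ 1 with hTdef
  have hTsub : ∀ u ∈ T, u ∈ L.primeFactors := fun u hu => (Finset.mem_filter.mp hu).1
  have hT : ∀ u ∈ T, u.Prime := fun u hu => Nat.prime_of_mem_primeFactors (hTsub u hu)
  have hχT : ∀ u ∈ T, χ u ^ 2 ≠ 1 := fun u hu => (Finset.mem_filter.mp hu).2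
  have htT : t ∈ T := Finset.mem_filter.mpr ⟨Q.site_mem_level ht,
    Q.chi_sq_ne_one ψ hp2 (fun o => (j.comp φ).commutes o) (algebraMap_kbar_injective O) ht⟩
  have hout : ∀ u ∈ L.primeFactors, u ∉ T → χ u = 1 := fun u hu huT =>
    Q.chi_eq_one_of_sq ψ hp2 true u (by
      by_contra h
      exact huT (Finset.mem_filter.mpr ⟨hu, h⟩))
  set M := ∏ u ∈ L.primeFactors \ T, u with hMdef
  have hLM : L = M * ∏ u ∈ T, u := Q.level_eq_mul_prod hTsub
  have hM0 : M ≠ 0 := fun h => Q.level_ne_zero (show L = 0 by rw [hLM, h, zero_mul])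
  have hMT : ∀ u ∈ T, ¬ u ∣ M := fun u hu => Q.not_dvd_prod_sdiff hTsub hu
  set N := M * ∏ u ∈ T.erase t, u ^ 2 with hNdef
  have : NeZero N := ⟨mul_ne_zero hM0 (Finset.prod_ne_zero_iff.mpr fun u hu =>
    pow_ne_zero _ (hT u (Finset.mem_of_mem_erase hu)).ne_zero)⟩
  have htN : ¬ t ∣ N := fun h => by
    rcases htP.dvd_mul.mp h with h | h
    · exact hMT t htT h
    · obtain ⟨u, hu, htu⟩ := htP.prime.exists_mem_finset_dvd h
      obtain ⟨hne', huT⟩ := Finset.mem_erase.mp hu
      exact hne' ((Nat.prime_dvd_prime_iff_eq htP (hT u huT)).mp (htP.dvd_of_dvd_pow htu)).symm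
  -- the excluded primes
  set S0 := (Q.level * p).primeFactors with hS0
  have hLp0 : Q.level * p ≠ 0 := mul_ne_zero Q.level_ne_zero hp.ne_zero
  have hpS : p ∈ S0 := Nat.mem_primeFactors.mpr ⟨hp, dvd_mul_left _ _, hLp0⟩
  have hSL : ∀ l, l.Prime → l ∣ L → l ∈ S0 := fun l hl h =>
    Nat.mem_primeFactors.mpr ⟨hl, h.mul_right p, hLp0⟩
  have hSN : ∀ l, l.Prime → l ∣ N * t ^ 2 → l ∈ S0 := fun l hl h => hSL l hl (by
    rw [hLM]
    rcases hl.dvd_mul.mp h with h | h
    · rcases hl.dvd_mul.mp h with h | h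
      · exact h.mul_right _
      · obtain ⟨u, hu, hlu⟩ := hl.prime.exists_mem_finset_dvd h
        exact ((hl.dvd_of_dvd_pow hlu).trans
          (Finset.dvd_prod_of_mem _ (Finset.mem_of_mem_erase hu))).mul_left _
    · exact ((hl.dvd_of_dvd_pow h).trans (Finset.dvd_prod_of_mem _ htT)).mul_left _)
  have hout' : ∀ l, l.Prime → l ∉ S0 → ¬ l ∣ Q.level * p := fun l hl hlS h =>
    hlS (Nat.mem_primeFactors.mpr ⟨hl, h, hLp0⟩)
  -- the eigensymbol
  set Φ := comb (fun i => mapVal ψ (b i)) v with hΦdef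
  set δ := (Q.delta true).ringHomComp ψ with hδdef
  have hΦ : Φ ∈ SymbChar (Kbar O) δ := Q.comb_mem_symbChar ψ true b hb v
  have hδ : ∀ d : ℤ, IsUnit (d : ZMod L) →
      δ (d : ZMod L) = ∏ u ∈ T, χ u (d : ZMod u) ^ 2 := fun d hd =>
    Q.delta_eq_prod_sq ψ hTsub true hout hd
  obtain ⟨Ψ, hΨ, hΨ0, hΨU, hΨtr, hΨa⟩ := exists_twist_site T hT χ hχT hM0 hMT htT hLM hNdef δ hδ
    S0 hSL (fun l => j (a l)) hΦ hne fun l hl hlS => ha l hl (hout' l hl hlS)
  -- its eigenvalues are the traces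
  set c : ℕ → C := fun l => φ (Ring.inverse (Q.scalar true l)) * a l with hcdef
  have hscal : ∀ l, l.Prime → l ∉ S0 →
      (∏ u ∈ T, (χ u)⁻¹ (l : ZMod u)) * j (a l) = j (c l) := by
    intro l hl hlS
    rw [Q.prod_chi_inv ψ hTsub true hout hl fun h => hlS (hSL l hl h)]
    simp only [c, map_mul]
    rfl
  obtain ⟨ℓ, hℓ, hℓS, hℓmod, hℓR⟩ := S.R.exists_ne_one_add hp2 S0 (L := N * t ^ 2)
    (mul_ne_zero (NeZero.ne N) (pow_ne_zero _ htP.ne_zero))
  have hneis : ∃ ℓ, ℓ.Prime ∧ ℓ ∉ S0 ∧ ℓ % (N * t ^ 2) = 1 % (N * t ^ 2) ∧ j (c ℓ) ≠ 1 + ℓ := by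
    refine ⟨ℓ, hℓ, hℓS, hℓmod, fun he => ?_⟩
    obtain ⟨P, hP⟩ := Density.exists_liesOverPrime hℓ
    obtain ⟨s, hs⟩ := Density.exists_isFrobeniusAt P hℓ hP
    refine hℓR P hP s hs ((ResidueField.map (algebraMap O C)).injective ?_)
    have hcℓ : c ℓ = 1 + (ℓ : C) := hj (by rw [he, map_add, map_one, map_natCast])
    rw [← hresρ s, hfrob ℓ hℓ hℓS P hP s hs, show φ (Ring.inverse (Q.scalar true ℓ)) * a ℓ = c ℓ
      from rfl, hcℓ]
    simp
  obtain ⟨M', g, F, e, hM', htM', hg, hga⟩ := exists_newform_of_sq_ker htP htN hΨ hΨ0 hΨtr hΨU S0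
    hSN (fun l => j (c l)) (fun l hl hlS => by rw [hΨa l hl hlS, hscal l hl hlS]) hneis
  have : NeZero M' := ⟨fun h => by
    rw [h, zero_dvd_iff] at hM'
    exact mul_ne_zero (NeZero.ne N) (pow_ne_zero _ htP.ne_zero) hM'⟩
  have H : OnNewform hpC S0 ρ g := onNewform_of_coeff j.toRingHom hj hg hpS
    (fun q hq hqM => hSN q hq (hqM.trans hM')) hρ hdet e c hga
    fun l hl hlS P hP s hs => hfrob l hl hlS P hP s hs
  have hirr : AbsIrreducibleOn (mapRep (residue C) ρ) ⊤ :=
    absIrreducibleOn_of_trace_eq (fun σ => by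
      show ((residue C).mapMatrix (ρ σ)).trace =
        ((ResidueField.map (algebraMap O C)).mapMatrix (S.R.rep σ)).trace
      refine ((AddMonoidHom.map_trace (residue C).toAddMonoidHom _).symm.trans (hresρ σ)).trans ?_
      exact AddMonoidHom.map_trace (ResidueField.map (algebraMap O C)).toAddMonoidHom _)
      (absIrreducibleOn_map (ResidueField.map (algebraMap O C)) S.R.irr)
  refine H.exists_inertia_trace_ne_two hp2 hirr htP htp ?_ (Start.place_spec t htP)
  refine le_antisymm ?_ ((htP.pow_dvd_iff_le_factorization (NeZero.ne M')).mp htM')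
  have h := (Nat.factorization_le_iff_dvd (NeZero.ne M')
    (mul_ne_zero (NeZero.ne N) (pow_ne_zero _ htP.ne_zero))).mpr hM' t
  rw [Nat.factorization_mul (NeZero.ne N) (pow_ne_zero _ htP.ne_zero), Finsupp.add_apply,
    Nat.factorization_eq_zero_of_not_dvd htN, zero_add, Nat.factorization_pow, Finsupp.smul_apply,
    htP.factorization_self, smul_eq_mul, mul_one] at h
  exact h

end FLTAgent.LevelLowering

end
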