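import Fermat.Agent.LevelLowering.Points.Irred
import Fermat.Agent.LevelLowering.Points.TwSite
import Fermat.Agent.LevelLowering.Points.NewformDvd
import Fermat.Agent.LevelLowering.Points.General
import Fermat.Agent.LevelLowering.Points.TwPrime

/-!
# The local properties of the representation of a point, assembled

`TWData.exists_point_props` combines the files of `LevelLowering.Points`: an eigensymbol of either
side gives a trace function, and every representation with that trace has the properties
`PointProps`.  Used by `LevelLowering.Core.Family`.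
-/


set_option autoImplicit false
noncomputable section
open IsLocalRing WeierstrassCurve
namespace FLTAgent.LevelLowering
open FLTAgent.Density (GalQ Qbar)
open FLTAgent.DefRing FLTAgent.ModularityLifting FLTAgent.GaloisAttach FLTAgent.HeckePoints
  FLTAgent.LevelRaising

variable {p : ℕ} [Fact p.Prime] {W : WeierstrassCurve ℤ} {O : Type} [CommRing O] [IsDomain O]
  [IsDiscreteValuationRing O] [IsAdicComplete (maximalIdeal O) O] [Finite (ResidueField O)]
  [CharZero O] [CharP (ResidueField O) p] {S : LowerSetup p W O} {r n : ℕ}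

theorem TWData.exists_point_props (Q : TWData S r n) (tw : Bool) (hp2 : p ≠ 2)
    [IsLocalRing Q.Coef]
    {C : Type} [CommRing C] [IsDomain C] [IsDiscreteValuationRing C]
    [IsAdicComplete (maximalIdeal C) C] [Finite (ResidueField C)] [CharZero C]
    [Algebra O C] [Module.Finite O C] [IsLocalHom (algebraMap O C)]
    (hpC : (p : C) ∈ maximalIdeal C) {φ : Q.Coef →ₐ[O] C} {a : ℕ → C} (E : Q.PointSymbol tw φ a) :
    ∃ f, IsPointTrace hpC (Q.level * p).primeFactors
        (fun l => φ (Ring.inverse (Q.scalar tw l)) * a l) f ∧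
      (∀ g, residue C (f g) = ResidueField.map (algebraMap O C) (S.R.rep g).trace) ∧
      ∀ ρ : MatRep C, MatCont ρ → (∀ σ, (ρ σ).det = cycChar hpC σ) → (∀ σ, (ρ σ).trace = f σ) →
        Q.PointProps tw φ ρ := by
  classical
  obtain ⟨f, hf, hfres, -⟩ := Q.exists_point_level tw hp2 hpC E
  refine ⟨f, hf, hfres, fun ρ hρ hdet htr => ?_⟩
  have hfrob : ∀ l, l.Prime → l ∉ (Q.level * p).primeFactors → ∀ P : ValuationSubring Qbar,
      P.LiesOverPrime l → ∀ s, P.IsFrobeniusAt s l →
      (ρ s).trace = φ (Ring.inverse (Q.scalar tw l)) * a l :=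
    fun l hl hlS P hP s hs => (htr s).trans (hf.frob l hl hlS P hP s hs)
  have hresρ : ∀ g, residue C (ρ g).trace =
      ResidueField.map (algebraMap O C) (S.R.rep g).trace := fun g => by rw [htr, hfres]
  have HR : Q.IsPointRep tw hpC φ a ρ := ⟨hρ, hdet, hfrob, hresρ⟩
  have hirr := absIrreducibleOn_residue_of_trace S.R hresρ
  have hdvd : ∀ t ∈ S.loc, (tw = false ∨ t ∉ S.sites) →
      ∃ (M' : ℕ) (_ : NeZero M') (g : CuspForm (CongruenceSubgroup.Gamma0 M') 2),
        t ∣ M' ∧ ¬ t ^ 2 ∣ M' ∧ OnNewform hpC (Q.level * p).primeFactors ρ g :=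
    fun t ht ht' => Q.exists_newform_dvd tw hp2 hpC E HR ht ht'
  have hsteinberg : ∀ t ∈ S.loc, t ≠ p → (tw = false ∨ t ∉ S.sites) →
      ∃ ε : ℤ, (ε = 1 ∨ ε = -1) ∧ SteinbergAt ρ t (ε : C) := fun t ht htp ht' => by
    obtain ⟨M', _, g, hd, hd2, H⟩ := hdvd t ht ht'
    exact H.steinbergAt hp2 hirr (S.mem_loc ht).1 htp hd hd2
  refine
    { unramified := fun q hq hq1 hqp hqi =>
        Q.point_unramified tw hp2 hpC E HR hq hq1
          hqp hqi
      steinberg := fun t ht => ?_
      strict := fun hploc => ?_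
      flat := fun hploc =>
        Q.point_flat tw hp2 hpC E HR hploc
      site := fun htw t ht =>
        hsteinberg t (S.mem_sites ht).2.2.2.2 (S.mem_sites ht).2.1 (Or.inl htw)
      twSite := fun htw t ht =>
        Q.point_twSite tw hp2 hpC E HR htw ht
      twPrime := fun i =>
        Q.point_trace_twPrime tw hp2 hpC E HR i }
  · obtain ⟨ht1, htp, htr'⟩ := Finset.mem_filter.mp ht
    exact hsteinberg t ht1 htp (Or.inr fun hs => htr' (S.mem_sites hs).2.2.2.1)
  · obtain ⟨M', _, g, hd, hd2, H⟩ := hdvd p hploc (Or.inr fun hs => (S.mem_sites hs).2.1 rfl)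
    obtain ⟨ε, hε, hst⟩ := H.exists_strictAt hp2 hirr hd hd2
    exact ⟨ε, hε, hst⟩

end FLTAgent.LevelLowering

end
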